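import Mathlib.NumberTheory.ModularForms.CongruenceSubgroups
import Fermat.Prelude.Def_ModularCurve_PeriodMap
import Fermat.Agent.Gamma0.ComplexConjClass

/-!
# Refined parabolic homomorphisms

`FLTA.Gamma0.homPar0 R Γ A` is the module of additive homomorphisms `Γ → A` vanishing on every
element of trace of absolute value at most two, i.e. on the centre, on the elliptic elements and on
the parabolic elements.
-/

set_option autoImplicit false

open scoped MatrixGroups

namespace FLTA.Gamma0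

open ModularCurve.Period

/-- The element is central, elliptic or parabolic. -/
def IsSmallTrace (g : SL(2, ℤ)) : Prop :=
  (g : Matrix (Fin 2) (Fin 2) ℤ).trace ^ 2 ≤ 4

/-- A homomorphism killing all central, elliptic and parabolic elements. -/
def IsParHom0 (Γ : Subgroup SL(2, ℤ)) {A : Type*} [AddCommGroup A] (φ : Additive Γ →+ A) : Prop :=
  ∀ γ : Γ, IsSmallTrace (γ : SL(2, ℤ)) → φ (Additive.ofMul γ) = 0

/-- Homomorphisms vanishing on central, elliptic and parabolic elements. -/
def homPar0 (R : Type*) [Semiring R] (Γ : Subgroup SL(2, ℤ)) (A : Type*) [AddCommGroup A]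
    [Module R A] : Submodule R (Additive Γ →+ A) where
  carrier := {φ | IsParHom0 Γ φ}
  zero_mem' := fun _ _ => rfl
  add_mem' := by
    intro φ ψ hφ hψ γ hγ
    show φ (Additive.ofMul γ) + ψ (Additive.ofMul γ) = 0
    rw [hφ γ hγ, hψ γ hγ, add_zero]
  smul_mem' := by
    intro c φ hφ γ hγ
    show c • φ (Additive.ofMul γ) = 0
    rw [hφ γ hγ, smul_zero]

theorem mem_homPar0_iff {R : Type*} [Semiring R] {Γ : Subgroup SL(2, ℤ)} {A : Type*}
    [AddCommGroup A] [Module R A] {φ : Additive Γ →+ A} :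
    φ ∈ homPar0 R Γ A ↔ IsParHom0 Γ φ :=
  Iff.rfl

theorem homPar0_le_parabolicHoms (R : Type*) [Semiring R] (Γ : Subgroup SL(2, ℤ)) (A : Type*)
    [AddCommGroup A] [Module R A] : homPar0 R Γ A ≤ parabolicHoms R Γ A :=
  fun _ hφ γ hγ => hφ γ hγ.le

/-- Pushing forward along a homomorphism of coefficient groups. -/
theorem IsParHom0.comp {Γ : Subgroup SL(2, ℤ)} {A B : Type*} [AddCommGroup A] [AddCommGroup B]
    {φ : Additive Γ →+ A} (hφ : IsParHom0 Γ φ) (f : A →+ B) : IsParHom0 Γ (f.comp φ) := by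
  intro γ hγ
  show f (φ (Additive.ofMul γ)) = 0
  rw [hφ γ hγ, map_zero]

/-- Pushing forward along a homomorphism of coefficient groups. -/
def homPar0Map (Γ : Subgroup SL(2, ℤ)) {A B : Type*} [AddCommGroup A] [AddCommGroup B]
    (f : A →+ B) : homPar0 ℤ Γ A →+ homPar0 ℤ Γ B where
  toFun φ := ⟨f.comp φ.1, φ.2.comp f⟩
  map_zero' := Subtype.ext (AddMonoidHom.comp_zero f)
  map_add' φ ψ := Subtype.ext (f.comp_add φ.1 ψ.1)

@[simp] theorem homPar0Map_coe (Γ : Subgroup SL(2, ℤ)) {A B : Type*} [AddCommGroup A]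
    [AddCommGroup B] (f : A →+ B) (φ : homPar0 ℤ Γ A) :
    (homPar0Map Γ f φ : Additive Γ →+ B) = f.comp φ.1 :=
  rfl

/-- Elliptic elements have order dividing `12`. -/
theorem pow_twelve_eq_one {g : SL(2, ℤ)}
    (hg : (g : Matrix (Fin 2) (Fin 2) ℤ).trace ^ 2 < 4) : g ^ 12 = 1 := by
  obtain ⟨δ, n, h⟩ := ConjClass.exists_conj_eq_pow g hg
  have h12 : (δ * g * δ⁻¹) ^ 12 = 1 := by
    rcases h with h | h
    · rw [h, ← pow_mul, mul_comm, pow_mul,
        show (ModularGroup.S : SL(2, ℤ)) ^ 12 = 1 by decide +kernel, one_pow]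
    · rw [h, ← pow_mul, mul_comm, pow_mul,
        show Presentation.matU ^ 12 = 1 by decide +kernel, one_pow]
  rwa [conj_pow, conj_eq_one_iff] at h12

/-- Over coefficients without `6`-torsion the parabolic condition already kills elliptic
elements and the centre. -/
theorem parabolicHoms_eq_homPar0 (R : Type*) [Semiring R] (Γ : Subgroup SL(2, ℤ)) (A : Type*)
    [AddCommGroup A] [Module R A] (hA : ∀ a : A, 6 • a = 0 → a = 0) :
    parabolicHoms R Γ A = homPar0 R Γ A := by
  refine le_antisymm (fun φ hφ γ hγ => ?_) (homPar0_le_parabolicHoms R Γ A)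
  rcases lt_or_eq_of_le hγ with h | h
  · have h1 : γ ^ 12 = 1 := Subtype.ext (by simpa using pow_twelve_eq_one h)
    have h2 : 12 • φ (Additive.ofMul γ) = 0 := by
      rw [← map_nsmul, ← ofMul_pow, h1]; exact map_zero φ
    refine hA _ ?_
    have h3 : 2 • φ (Additive.ofMul γ) = 0 := hA _ (by rw [← mul_nsmul']; exact h2)
    rw [show (6 : ℕ) = 3 * 2 from rfl, mul_nsmul', h3, smul_zero]
  · exact hφ γ h

end FLTA.Gamma0
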