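import Fermat.Agent.Gamma0.Complex.Rank
import Fermat.Agent.Gamma0.Counts

/-!
# Orbit counts on the cosets of `Γ₀(N)` in the language of the cell complex
-/

set_option autoImplicit false

open scoped MatrixGroups
open CongruenceSubgroup

namespace FLTA.Gamma0

open Presentation Orbits

theorem neg_one_mem_gamma0 (N : ℕ) : (-1 : SL(2, ℤ)) ∈ Gamma0 N := by
  simp [Gamma0_mem]

variable (N : ℕ) [NeZero N]

instance finite_coset_gamma0 : Finite (Coset (Gamma0 N)) :=
  Subgroup.finite_quotient_of_finiteIndex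

theorem card_permOrbit_T :
    Nat.card (PermOrbit (cosetPerm (Gamma0 N) ModularGroup.T)) = ModularCurve.cuspCount N := by
  rw [← card_orbits_T N]
  refine Nat.card_congr (Quotient.congrRight fun x y => ?_)
  rw [MulAction.orbitRel_apply]
  show Equiv.Perm.SameCycle _ x y ↔ _
  have hz : ∀ (i : ℤ) (z : Coset (Gamma0 N)),
      ((cosetPerm (Gamma0 N) ModularGroup.T) ^ i) z = (ModularGroup.T : SL(2, ℤ)) ^ i • z :=
    fun i z => (DFunLike.congr_fun
      (map_zpow (MulAction.toPermHom SL(2, ℤ) (Coset (Gamma0 N))) ModularGroup.T i) z).symm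
  constructor
  · rintro ⟨i, rfl⟩
    exact ⟨⟨(ModularGroup.T : SL(2, ℤ)) ^ (-i), -i, rfl⟩, by
      show (ModularGroup.T : SL(2, ℤ)) ^ (-i) • _ = x
      rw [hz, ← mul_smul, ← zpow_add, neg_add_cancel, zpow_zero, one_smul]⟩
  · rintro ⟨⟨g, i, rfl⟩, hg⟩
    refine ⟨-i, ?_⟩
    have hg' : (ModularGroup.T : SL(2, ℤ)) ^ i • y = x := hg
    rw [hz, ← hg', ← mul_smul, ← zpow_add, neg_add_cancel, zpow_zero, one_smul]

theorem three_mul_card_permOrbit_matU :
    3 * Nat.card (PermOrbit (cosetPerm (Gamma0 N) matU)) =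
      ModularCurve.dedekindPsi N + 2 * ModularCurve.nuThree N := by
  have hπ : cosetPerm (Gamma0 N) matU ^ 3 = 1 := by
    refine Equiv.ext fun z => ?_
    show matU • matU • matU • z = z
    rw [← mul_smul, ← mul_smul, ← pow_three', matU_cube,
      neg_one_smul_coset (neg_one_mem_gamma0 N)]
  rw [mul_card_permOrbit _ Nat.prime_three hπ, card_cosets_Gamma0, ← card_fixedBy_ST N]
  rfl

theorem two_mul_card_dart :
    2 * Nat.card (Dart (Gamma0 N)) + ModularCurve.nuTwo N = ModularCurve.dedekindPsi N := by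
  rw [← card_cosets_Gamma0 N, ← card_fixedBy_S N]
  exact two_mul_card_dart_add (neg_one_mem_gamma0 N)

/-- Euler characteristic: twelve times the rank in terms of the Prelude invariants. -/
theorem twelve_mul_euler :
    12 * ((Nat.card (Dart (Gamma0 N)) : ℤ) - Nat.card (PermOrbit (cosetPerm (Gamma0 N) matU))
        - Nat.card (PermOrbit (cosetPerm (Gamma0 N) ModularGroup.T)) + 2) =
      2 * ModularCurve.dedekindPsi N - 6 * ModularCurve.nuTwo N - 8 * ModularCurve.nuThree N
        - 12 * ModularCurve.cuspCount N + 24 := by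
  have h1 := card_permOrbit_T N
  have h2 := three_mul_card_permOrbit_matU N
  have h3 := two_mul_card_dart N
  omega

/-- The cell count equals twice the genus formula. -/
theorem euler_eq_two_mul_genusFormula :
    (((Nat.card (Dart (Gamma0 N)) : ℤ) - Nat.card (PermOrbit (cosetPerm (Gamma0 N) matU))
        - Nat.card (PermOrbit (cosetPerm (Gamma0 N) ModularGroup.T)) + 2 : ℤ) : ℚ) =
      2 * ModularCurve.genusFormula N := by
  have h := congrArg (Int.cast : ℤ → ℚ) (twelve_mul_euler N)
  push_cast at h ⊢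
  rw [ModularCurve.genusFormula]
  linarith

end FLTA.Gamma0
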