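import Fermat.Agent.Gamma0.Complex.Rank
import Mathlib.GroupTheory.Schreier
import Mathlib.GroupTheory.Abelianization.Defs
import Mathlib.GroupTheory.FiniteAbelian.Basic
import Mathlib.LinearAlgebra.FreeModule.Finite.Basic
import Mathlib.Data.ZMod.Basic
import Mathlib.Algebra.Field.ZMod

/-!
# The universal refined parabolic quotient of `Γ` is free
-/

set_option autoImplicit false

open scoped MatrixGroups DirectSum
open Module

namespace FLTA.Gamma0

open Presentation Orbits

section abelian

/-- A finitely generated abelian group whose spaces of homomorphisms to `ℚ` and to every `𝔽_p`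
have dimensions `n` and at most `n` is free of rank `n`. -/
theorem nonempty_addEquiv_pi_int (M : Type*) [AddCommGroup M] [AddGroup.FG M] (n : ℕ)
    (hQ : finrank ℚ (M →+ ℚ) = n) [FiniteDimensional ℚ (M →+ ℚ)]
    (hp : ∀ (p : ℕ) [Fact p.Prime], FiniteDimensional (ZMod p) (M →+ ZMod p) ∧
      finrank (ZMod p) (M →+ ZMod p) ≤ n) :
    Nonempty (M ≃+ (Fin n → ℤ)) := by
  classical
  obtain ⟨r, ι, _, p, hpp, e, ⟨f⟩⟩ := AddCommGroup.equiv_free_prod_directSum_zmod M
  have hne : ∀ i, p i ^ e i ≠ 0 := fun i => pow_ne_zero _ (hpp i).ne_zero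
  -- the torsion part is killed by a nonzero number
  set D : ℕ := ∏ i, p i ^ e i with hD
  have hD0 : D ≠ 0 := Finset.prod_ne_zero_iff.mpr fun i _ => hne i
  have hkill : ∀ t : ⨁ i, ZMod (p i ^ e i), D • t = 0 := fun t => by
    refine DFinsupp.ext fun i => ?_
    rw [DirectSum.smul_apply, nsmul_eq_mul, DirectSum.zero_apply,
      (ZMod.natCast_eq_zero_iff D (p i ^ e i)).2
        (Finset.dvd_prod_of_mem _ (Finset.mem_univ i)), zero_mul]
  let b : Fin r → M := fun j => f.symm (Finsupp.single j 1, 0)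
  have hb : ∀ (k : Type) [Field k] (ψ : M →+ k) (x : M), (D : k) ≠ 0 → (∀ j, ψ (b j) = 0) →
      ψ x = 0 := by
    intro k _ ψ x hDk hψ
    have h1 : ψ.comp (f.symm.toAddMonoidHom.comp (AddMonoidHom.inl _ _)) = 0 :=
      Finsupp.addHom_ext' fun j => AddMonoidHom.ext_int (hψ j)
    have h2 : ∀ t, ψ (f.symm (0, t)) = 0 := fun t => by
      have : D • ψ (f.symm (0, t)) = 0 := by
        rw [← map_nsmul, ← map_nsmul, Prod.smul_mk, smul_zero, hkill, Prod.mk_zero_zero,
          map_zero, map_zero]
      rw [nsmul_eq_mul] at this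
      exact (mul_eq_zero.mp this).resolve_left hDk
    rw [← f.symm_apply_apply x, ← Prod.fst_add_snd (f x), map_add, map_add,
      show ψ (f.symm ((f x).1, 0)) = 0 from DFunLike.congr_fun h1 (f x).1, h2, add_zero]
  -- the rank of the free part is at least `n`
  have hnr : n ≤ r := by
    let L : (M →+ ℚ) →ₗ[ℚ] (Fin r → ℚ) :=
      { toFun := fun ψ j => ψ (b j), map_add' := fun _ _ => rfl, map_smul' := fun _ _ => rfl }
    have hL : Function.Injective L := by
      rw [injective_iff_map_eq_zero]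
      exact fun ψ hψ => AddMonoidHom.ext fun x =>
        hb ℚ ψ x (Nat.cast_ne_zero.mpr hD0) (congrFun hψ)
    have := LinearMap.finrank_le_finrank_of_injective hL
    rwa [hQ, Module.finrank_fintype_fun_eq_card, Fintype.card_fin] at this
  have coord : ∀ (k : Type) [Field k] (v : Fin r → k), ∃ ψ : M →+ k,
      (∀ j, ψ (b j) = v j) ∧ ∀ t, ψ (f.symm (0, t)) = 0 := fun k _ v =>
    ⟨((Finsupp.liftAddHom fun j => zmultiplesHom k (v j)).comp
        (AddMonoidHom.fst _ _)).comp f.toAddMonoidHom,
      fun j => by simp [b], fun t => by simp⟩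
  -- there is no torsion
  have he : ∀ i, e i = 0 := by
    intro i
    by_contra hi
    have := Fact.mk (hpp i)
    obtain ⟨hfin, hle⟩ := hp (p i)
    let s : M := f.symm (0, DirectSum.of (fun i => ZMod (p i ^ e i)) i 1)
    let L : (M →+ ZMod (p i)) →ₗ[ZMod (p i)] (Fin r → ZMod (p i)) × ZMod (p i) :=
      { toFun := fun ψ => (fun j => ψ (b j), ψ s)
        map_add' := fun _ _ => rfl
        map_smul' := fun _ _ => rfl }
    have hL : Function.Surjective L := by
      rintro ⟨v, w⟩
      obtain ⟨ψ, hψ, hψ0⟩ := coord _ v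
      let χ : M →+ ZMod (p i) :=
        ((AddMonoidHom.mulLeft w).comp ((ZMod.castHom (dvd_pow_self (p i) hi)
          (ZMod (p i))).toAddMonoidHom.comp ((DFinsupp.evalAddMonoidHom i).comp
            (AddMonoidHom.snd _ _)))).comp f.toAddMonoidHom
      refine ⟨ψ + χ, Prod.ext (funext fun j => ?_) ?_⟩
      · show ψ (b j) + χ (b j) = v j
        rw [hψ]
        simp [χ, b]
      · show ψ s + χ s = w
        have hev : (DirectSum.of (fun i => ZMod (p i ^ e i)) i 1) i = 1 :=
          DirectSum.of_eq_same (β := fun i => ZMod (p i ^ e i)) i 1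
        rw [show ψ s = 0 from hψ0 _, zero_add]
        have h1 : (DFinsupp.evalAddMonoidHom (β := fun i => ZMod (p i ^ e i)) i)
            (DirectSum.of (fun i => ZMod (p i ^ e i)) i 1) = 1 := hev
        have h2 : (ZMod.castHom (dvd_pow_self (p i) hi) (ZMod (p i))) 1 = 1 := map_one _
        simp only [χ, s, AddMonoidHom.comp_apply, AddEquiv.coe_toAddMonoidHom,
          AddEquiv.apply_symm_apply, AddMonoidHom.coe_snd, RingHom.toAddMonoidHom_eq_coe,
          AddMonoidHom.coe_coe, AddMonoidHom.coe_mulLeft]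
        erw [h1, h2]
        exact mul_one w
    have h1 := LinearMap.finrank_range_le L
    rw [LinearMap.range_eq_top.mpr hL, finrank_top, Module.finrank_prod,
      Module.finrank_fintype_fun_eq_card, Module.finrank_self, Fintype.card_fin] at h1
    omega
  have hsub : Subsingleton (⨁ i, ZMod (p i ^ e i)) := ⟨fun a c => DFinsupp.ext fun i => by
    have : Subsingleton (ZMod (p i ^ e i)) := by rw [he i, pow_zero]; infer_instance
    exact Subsingleton.elim _ _⟩
  have hrn : r ≤ n := by
    let L : (M →+ ℚ) →ₗ[ℚ] (Fin r → ℚ) :=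
      { toFun := fun ψ j => ψ (b j), map_add' := fun _ _ => rfl, map_smul' := fun _ _ => rfl }
    have hL : Function.Surjective L := fun v =>
      let ⟨ψ, hψ, _⟩ := coord ℚ v
      ⟨ψ, funext hψ⟩
    have h1 := LinearMap.finrank_range_le L
    rwa [LinearMap.range_eq_top.mpr hL, finrank_top, Module.finrank_fintype_fun_eq_card,
      Fintype.card_fin, hQ] at h1
  have := Unique.mk' (⨁ i, ZMod (p i ^ e i))
  obtain rfl : r = n := le_antisymm hrn hnr
  exact ⟨f.trans (AddEquiv.prodUnique.trans Finsupp.addEquivFunOnFinite)⟩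

end abelian

section universal

variable (Γ : Subgroup SL(2, ℤ))

/-- The subgroup generated by the classes of central, elliptic and parabolic elements. -/
def smallClasses : AddSubgroup (Additive (Abelianization Γ)) :=
  AddSubgroup.closure
    {m | ∃ γ : Γ, IsSmallTrace (γ : SL(2, ℤ)) ∧ m = Additive.ofMul (Abelianization.of γ)}

/-- The first homology of the compactified quotient of the upper half plane by `Γ`. -/
abbrev ParH1 : Type := Additive (Abelianization Γ) ⧸ smallClasses Γ

/-- The class of an element. -/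
def parClass : Additive Γ →+ ParH1 Γ :=
  (QuotientAddGroup.mk' (smallClasses Γ)).comp (MonoidHom.toAdditive Abelianization.of)

theorem parClass_surjective : Function.Surjective (parClass Γ) := by
  intro m
  obtain ⟨a, rfl⟩ := QuotientAddGroup.mk'_surjective (smallClasses Γ) m
  obtain ⟨g, hg⟩ := QuotientGroup.mk'_surjective (commutator Γ) (Additive.toMul a)
  exact ⟨Additive.ofMul g, congrArg (QuotientAddGroup.mk' (smallClasses Γ))
    (congrArg Additive.ofMul hg)⟩

theorem parClass_small {γ : Γ} (hγ : IsSmallTrace (γ : SL(2, ℤ))) :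
    parClass Γ (Additive.ofMul γ) = 0 :=
  (QuotientAddGroup.eq_zero_iff _).2 (AddSubgroup.subset_closure ⟨γ, hγ, rfl⟩)

/-- Refined parabolic homomorphisms are the homomorphisms of `ParH1 Γ`. -/
noncomputable def parHomEquiv (R : Type*) [Semiring R] (A : Type*) [AddCommGroup A] [Module R A] :
    (ParH1 Γ →+ A) ≃ₗ[R] homPar0 R Γ A :=
  LinearEquiv.ofBijective
    ({ toFun := fun ψ => ⟨ψ.comp (parClass Γ), fun γ hγ => by
          show ψ _ = 0
          rw [parClass_small Γ hγ, map_zero]⟩
       map_add' := fun _ _ => rfl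
       map_smul' := fun _ _ => rfl } : (ParH1 Γ →+ A) →ₗ[R] homPar0 R Γ A)
    ⟨fun ψ χ h => AddMonoidHom.ext fun m => by
        obtain ⟨γ, rfl⟩ := parClass_surjective Γ m
        exact DFunLike.congr_fun (congrArg Subtype.val h) γ,
      fun φ => by
        have hle : smallClasses Γ ≤ (MonoidHom.toAdditiveLeft
            (Abelianization.lift (AddMonoidHom.toMultiplicativeRight φ.1))).ker := by
          rw [smallClasses, AddSubgroup.closure_le]
          rintro m ⟨γ, hγ, rfl⟩
          exact φ.2 γ hγ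
        exact ⟨QuotientAddGroup.lift _ _ hle, Subtype.ext (AddMonoidHom.ext fun γ => rfl)⟩⟩

theorem group_fg_SL2Z : Group.FG SL(2, ℤ) := by
  classical
  exact Group.fg_iff.mpr ⟨{ModularGroup.S, ModularGroup.T}, SpecialLinearGroup.SL2Z_generators,
    Set.toFinite _⟩

variable [Γ.FiniteIndex]

instance : AddGroup.FG (ParH1 Γ) := by
  have : Group.FG SL(2, ℤ) := group_fg_SL2Z
  exact AddGroup.fg_of_surjective (f := parClass Γ) (parClass_surjective Γ)

/-- The rank of the first homology, computed over `ℚ`. -/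
noncomputable def parRank : ℕ := finrank ℚ (LinearMap.range (toHom ℚ Γ ℚ))

theorem parRank_eq (hΓ : (-1 : SL(2, ℤ)) ∈ Γ) :
    (parRank Γ : ℤ) = Nat.card (Dart Γ) - Nat.card (PermOrbit (cosetPerm Γ matU))
        - Nat.card (PermOrbit (cosetPerm Γ ModularGroup.T)) + 2 :=
  finrank_range_toHom ℚ hΓ

theorem finiteDimensional_range_toHom (k : Type*) [Field k] (hΓ : (-1 : SL(2, ℤ)) ∈ Γ) :
    FiniteDimensional k (LinearMap.range (toHom k Γ k)) := by
  have := Fintype.ofFinite (Dart Γ)
  have : FiniteDimensional k (cocycles k Γ k) :=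
    FiniteDimensional.of_injective (dartRestrict k) (dartRestrict_injective hΓ)
  infer_instance

theorem homPar0_eq_range_toHom (R : Type*) [Semiring R] (A : Type*) [AddCommGroup A] [Module R A]
    [IsAddTorsionFree A] (hΓ : (-1 : SL(2, ℤ)) ∈ Γ) :
    homPar0 R Γ A = LinearMap.range (toHom R Γ A) := by
  refine le_antisymm (homPar0_le_range_toHom R Γ A hΓ) ?_
  rintro φ ⟨c, rfl⟩
  exact toHom_mem_homPar0 hΓ c

/-- **The first homology is free of rank `parRank Γ`.** -/
theorem nonempty_parH1_equiv (hΓ : (-1 : SL(2, ℤ)) ∈ Γ) :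
    Nonempty (ParH1 Γ ≃+ (Fin (parRank Γ) → ℤ)) := by
  have e : (ParH1 Γ →+ ℚ) ≃ₗ[ℚ] LinearMap.range (toHom ℚ Γ ℚ) :=
    (parHomEquiv Γ ℚ ℚ).trans (LinearEquiv.ofEq _ _ (homPar0_eq_range_toHom Γ ℚ ℚ hΓ))
  have := finiteDimensional_range_toHom Γ ℚ hΓ
  have : FiniteDimensional ℚ (ParH1 Γ →+ ℚ) := LinearEquiv.finiteDimensional e.symm
  refine nonempty_addEquiv_pi_int _ _ e.finrank_eq fun p _ => ?_
  have hfd := finiteDimensional_range_toHom Γ (ZMod p) hΓ
  have hle := homPar0_le_range_toHom (ZMod p) Γ (ZMod p) hΓ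
  have : FiniteDimensional (ZMod p) (homPar0 (ZMod p) Γ (ZMod p)) :=
    Submodule.finiteDimensional_of_le hle
  refine ⟨LinearEquiv.finiteDimensional (parHomEquiv Γ (ZMod p) (ZMod p)).symm, ?_⟩
  rw [(parHomEquiv Γ (ZMod p) (ZMod p)).finrank_eq]
  refine (Submodule.finrank_mono hle).trans (le_of_eq ?_)
  exact_mod_cast (finrank_range_toHom (ZMod p) hΓ).trans (parRank_eq Γ hΓ).symm

end universal

end FLTA.Gamma0
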