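import Mathlib.LinearAlgebra.Dimension.Constructions
import Mathlib.Algebra.CharZero.Defs
import Fermat.Prelude.Def_ModularCurve_GenusNumerics
import Fermat.Agent.Gamma0.Complex.Basic
import Fermat.Agent.Gamma0.Complex.Count
import Fermat.Agent.Gamma0.Complex.Universal

/-!
# The cellular homology of `X₀(N)`

There are `homRank N = 2 * genusFormula N` elements `parBasis N i` of `Γ₀(N)` such that evaluation
at them identifies `homPar0 R (Γ₀(N)) A` with `Fin (homRank N) → A`, for every coefficient group.
-/

set_option autoImplicit false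

open scoped MatrixGroups
open CongruenceSubgroup

namespace FLTA.Gamma0

/-- The rank of the first homology of `X₀(N)`. -/
noncomputable def homRank (N : ℕ) : ℕ := (2 * ModularCurve.genusFormula N).num.toNat

variable (N : ℕ) [NeZero N]

theorem parRank_cast : (parRank (Gamma0 N) : ℚ) = 2 * ModularCurve.genusFormula N := by
  rw [← euler_eq_two_mul_genusFormula N, ← parRank_eq _ (neg_one_mem_gamma0 N), Int.cast_natCast]

theorem homRank_eq_parRank : homRank N = parRank (Gamma0 N) := by
  rw [homRank, ← parRank_cast N, Rat.num_natCast, Int.toNat_natCast]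

theorem homRank_eq : (homRank N : ℚ) = 2 * ModularCurve.genusFormula N := by
  rw [homRank_eq_parRank, parRank_cast]

/-- The identification of the first homology of `X₀(N)` with `ℤ ^ homRank N`. -/
noncomputable def parH1Equiv : ParH1 (Gamma0 N) ≃+ (Fin (homRank N) → ℤ) :=
  Classical.choice (by
    rw [homRank_eq_parRank]
    exact nonempty_parH1_equiv (Gamma0 N) (neg_one_mem_gamma0 N))

/-- Elements of `Γ₀(N)` giving a basis of the first homology of `X₀(N)`. -/
noncomputable def parBasis (i : Fin (homRank N)) : Gamma0 N :=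
  Additive.toMul (parClass_surjective (Gamma0 N) ((parH1Equiv N).symm (Pi.single i 1))).choose

theorem parClass_parBasis (i : Fin (homRank N)) :
    parClass (Gamma0 N) (Additive.ofMul (parBasis N i)) = (parH1Equiv N).symm (Pi.single i 1) :=
  (parClass_surjective (Gamma0 N) ((parH1Equiv N).symm (Pi.single i 1))).choose_spec

theorem bijective_eval_parBasis (A : Type*) [AddCommGroup A] :
    Function.Bijective
      (fun (φ : homPar0 ℤ (Gamma0 N) A) (i : Fin (homRank N)) =>
        φ.1 (Additive.ofMul (parBasis N i))) := by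
  classical
  have key : ∀ (ψ : ParH1 (Gamma0 N) →+ A) i,
      (parHomEquiv (Gamma0 N) ℤ A ψ).1 (Additive.ofMul (parBasis N i)) =
        ψ ((parH1Equiv N).symm (Pi.single i 1)) := fun ψ i =>
    congrArg ψ (parClass_parBasis N i)
  constructor
  · intro φ χ h
    obtain ⟨ψ, rfl⟩ := (parHomEquiv (Gamma0 N) ℤ A).surjective φ
    obtain ⟨ξ, rfl⟩ := (parHomEquiv (Gamma0 N) ℤ A).surjective χ
    refine congrArg _ (AddMonoidHom.ext fun m => ?_)
    have he : ψ.comp (parH1Equiv N).symm.toAddMonoidHom =
        ξ.comp (parH1Equiv N).symm.toAddMonoidHom :=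
      AddMonoidHom.functions_ext _ _ _ fun i t => by
        rw [← mul_one t, ← smul_eq_mul, Pi.single_smul, map_zsmul, map_zsmul]
        exact congrArg (t • ·) (((key ψ i).symm.trans (congrFun h i)).trans (key ξ i))
    simpa using DFunLike.congr_fun he (parH1Equiv N m)
  · intro v
    refine ⟨parHomEquiv (Gamma0 N) ℤ A ((∑ i, (zmultiplesHom A (v i)).comp
      (Pi.evalAddMonoidHom (fun _ => ℤ) i)).comp (parH1Equiv N).toAddMonoidHom), funext fun i => ?_⟩
    show (parHomEquiv (Gamma0 N) ℤ A _).1 _ = v i
    rw [key]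
    simp [AddMonoidHom.finset_sum_apply, Pi.single_apply, ite_smul]

/-- Evaluation at the homology basis. -/
noncomputable def homPar0Equiv (R : Type*) [Semiring R] (A : Type*) [AddCommGroup A]
    [Module R A] : homPar0 R (Gamma0 N) A ≃ₗ[R] (Fin (homRank N) → A) :=
  LinearEquiv.ofBijective
    ({ toFun := fun φ i => φ.1 (Additive.ofMul (parBasis N i))
       map_add' := fun _ _ => rfl
       map_smul' := fun _ _ => rfl } : homPar0 R (Gamma0 N) A →ₗ[R] (Fin (homRank N) → A))
    ⟨fun φ ψ h => Subtype.ext (congrArg Subtype.val ((bijective_eval_parBasis N A).1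
        (a₁ := (⟨φ.1, φ.2⟩ : homPar0 ℤ (Gamma0 N) A)) (a₂ := ⟨ψ.1, ψ.2⟩) h)),
      fun v => (bijective_eval_parBasis N A).2 v |>.elim fun φ h => ⟨⟨φ.1, φ.2⟩, h⟩⟩

@[simp] theorem homPar0Equiv_apply (R : Type*) [Semiring R] (A : Type*) [AddCommGroup A]
    [Module R A] (φ : homPar0 R (Gamma0 N) A) (i : Fin (homRank N)) :
    homPar0Equiv N R A φ i = φ.1 (Additive.ofMul (parBasis N i)) :=
  rfl

theorem homPar0_ext {A : Type*} [AddCommGroup A] {φ ψ : Additive (Gamma0 N) →+ A}
    (hφ : IsParHom0 (Gamma0 N) φ) (hψ : IsParHom0 (Gamma0 N) ψ)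
    (h : ∀ i, φ (Additive.ofMul (parBasis N i)) = ψ (Additive.ofMul (parBasis N i))) : φ = ψ :=
  congrArg Subtype.val ((bijective_eval_parBasis N A).1
    (a₁ := (⟨φ, hφ⟩ : homPar0 ℤ (Gamma0 N) A)) (a₂ := ⟨ψ, hψ⟩) (funext h))

/-- A surjection of coefficient groups gives a surjection of refined parabolic homomorphisms. -/
theorem homPar0Map_surjective {A B : Type*} [AddCommGroup A] [AddCommGroup B] (f : A →+ B)
    (hf : Function.Surjective f) : Function.Surjective (homPar0Map (Gamma0 N) f) := by
  intro ψ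
  choose g hg using fun i => hf (homPar0Equiv N ℤ B ψ i)
  refine ⟨(homPar0Equiv N ℤ A).symm g, (homPar0Equiv N ℤ B).injective (funext fun i => ?_)⟩
  have h := congrFun ((homPar0Equiv N ℤ A).apply_symm_apply g) i
  rw [homPar0Equiv_apply] at h ⊢
  rw [homPar0Map_coe, AddMonoidHom.comp_apply, h, hg i, homPar0Equiv_apply]

theorem free_homPar0 (R : Type*) [CommRing R] : Module.Free R (homPar0 R (Gamma0 N) R) :=
  Module.Free.of_equiv (homPar0Equiv N R R).symm

theorem finite_homPar0 (R : Type*) [CommRing R] : Module.Finite R (homPar0 R (Gamma0 N) R) :=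
  Module.Finite.equiv (homPar0Equiv N R R).symm

theorem finrank_homPar0 (R : Type*) [CommRing R] [Nontrivial R] :
    Module.finrank R (homPar0 R (Gamma0 N) R) = homRank N := by
  rw [(homPar0Equiv N R R).finrank_eq, Module.finrank_fintype_fun_eq_card, Fintype.card_fin]

theorem finrank_parabolicHoms (K : Type*) [Field K] [CharZero K] :
    Module.finrank K (ModularCurve.Period.parabolicHoms K (Gamma0 N) K) = homRank N := by
  rw [parabolicHoms_eq_homPar0 K (Gamma0 N) K fun a ha => ?_, finrank_homPar0]
  rw [nsmul_eq_mul] at ha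
  exact (mul_eq_zero.mp ha).resolve_left (by norm_num)

end FLTA.Gamma0
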