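import Fermat.Agent.Gamma0.Complex.Cup

/-!
# Invariance of the cup product pairing under isomorphisms of subgroups
-/

set_option autoImplicit false

open scoped MatrixGroups

namespace FLTA.Gamma0

open Presentation Orbits

variable {R : Type*} [CommRing R] {Γ Γ' : Subgroup SL(2, ℤ)}

/-- The element is parabolic with trace `2` and turns positively around its cusp. -/
def IsPosParabolic (g : SL(2, ℤ)) : Prop :=
  (g : Matrix (Fin 2) (Fin 2) ℤ).trace = 2 ∧ g ≠ 1 ∧ 0 ≤ g.1 0 1 ∧ g.1 1 0 ≤ 0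

theorem entries_conj_T (δ : SL(2, ℤ)) (n : ℤ) :
    let g := δ⁻¹ * ModularGroup.T ^ n * δ
    g.1.trace = 2 ∧ g.1 0 1 = n * δ.1 1 1 ^ 2 ∧ g.1 1 0 = -(n * δ.1 1 0 ^ 2) := by
  have h := δ.det_coe
  rw [Matrix.det_fin_two] at h
  simp only [Matrix.SpecialLinearGroup.coe_mul, Matrix.SpecialLinearGroup.coe_inv,
    ModularGroup.coe_T_zpow]
  refine ⟨?_, ?_, ?_⟩ <;>
    simp [Matrix.trace_fin_two, Matrix.mul_apply, Matrix.vecMul, dotProduct, Fin.sum_univ_two,
      Matrix.adjugate_fin_two]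
  · linear_combination 2 * h
  · ring
  · ring

theorem isPosParabolic_conj_T (δ : SL(2, ℤ)) {n : ℕ} (hn : 0 < n) :
    IsPosParabolic (δ⁻¹ * ModularGroup.T ^ n * δ) := by
  have h := entries_conj_T δ n
  simp only [zpow_natCast] at h
  refine ⟨h.1, fun h1 => ?_, ?_, ?_⟩
  · rw [h1] at h
    have hd := h.2.1.symm
    have hc := h.2.2.symm
    simp [hn.ne'] at hd hc
    have hdet := δ.det_coe
    rw [Matrix.det_fin_two, hd, hc] at hdet
    norm_num at hdet
  · rw [h.2.1]; positivity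
  · rw [h.2.2]; exact neg_nonpos.2 (by positivity)

theorem IsPosParabolic.exists_conj_T {g : SL(2, ℤ)} (hg : IsPosParabolic g) :
    ∃ (δ : SL(2, ℤ)) (n : ℕ), 0 < n ∧ g = δ⁻¹ * ModularGroup.T ^ n * δ := by
  obtain ⟨htr, hne, hb, hc⟩ := hg
  obtain ⟨δ, n, h | h⟩ := ConjClass.exists_conj_eq_T_zpow g (by rw [htr]; norm_num)
  · have hg' : g = δ⁻¹ * ModularGroup.T ^ n * δ := by rw [← h]; group
    have h' := entries_conj_T δ n
    rw [← hg'] at h'
    obtain ⟨-, h01, h10⟩ := h'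
    have hn : 0 < n := by
      rcases lt_trichotomy n 0 with hn | hn | hn
      · exfalso
        have hd : δ.1 1 1 = 0 := by
          by_contra hd
          nlinarith [pow_two_pos_of_ne_zero hd]
        have hcc : δ.1 1 0 = 0 := by
          by_contra hcc
          nlinarith [pow_two_pos_of_ne_zero hcc]
        have hdet := δ.det_coe
        rw [Matrix.det_fin_two, hd, hcc] at hdet
        norm_num at hdet
      · exact absurd (by rw [hg', hn]; simp) hne
      · exact hn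
    refine ⟨δ, n.toNat, by omega, ?_⟩
    rw [hg', ← zpow_natCast, Int.toNat_of_nonneg hn.le]
  · exfalso
    have e := congrArg (fun m : SL(2, ℤ) => m.1.trace) h
    simp only [ConjClass.trace_conj, htr] at e
    simp [ModularGroup.coe_T_zpow, Matrix.trace_fin_two] at e

/-- Centralisers: only `± T^j` conjugate a nonzero power of `T` to a power of `T`. -/
theorem conj_T_pow_eq {δ : SL(2, ℤ)} {n m : ℕ} (hn : 0 < n)
    (h : δ * ModularGroup.T ^ n = ModularGroup.T ^ m * δ) :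
    n = m ∧ ∃ j : ℤ, δ = ModularGroup.T ^ j ∨ δ = -ModularGroup.T ^ j := by
  rw [← zpow_natCast, ← zpow_natCast] at h
  have h00 := congrArg (fun g : SL(2, ℤ) => g.1 0 0) h
  have h01 := congrArg (fun g : SL(2, ℤ) => g.1 0 1) h
  have h11 := congrArg (fun g : SL(2, ℤ) => g.1 1 1) h
  simp only [Matrix.SpecialLinearGroup.coe_mul, ModularGroup.coe_T_zpow] at h00 h01 h11
  simp [Matrix.mul_apply, Fin.sum_univ_two] at h00 h01 h11
  have hc : δ.1 1 0 = 0 := h11.resolve_right hn.ne'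
  refine ⟨?_, ConjClass.eq_T_zpow_of_lower_zero δ hc⟩
  have hdet := δ.det_coe
  rw [Matrix.det_fin_two, hc, mul_zero, sub_zero] at hdet
  rcases Int.mul_eq_one_iff_eq_one_or_neg_one.1 hdet with ⟨ha, hd⟩ | ⟨ha, hd⟩ <;>
    rw [ha, hd] at h01 <;> omega

theorem cuspWidth_pos [Finite (Coset Γ)] (z : Coset Γ) : 0 < cuspWidth Γ z :=
  Function.minimalPeriod_pos_iff_mem_periodicPts.2
    ((MulAction.toPerm (ModularGroup.T : SL(2, ℤ))).injective.mem_periodicPts z)

theorem cuspWidth_T_pow_smul [Finite (Coset Γ)] (i : ℕ) (x : Coset Γ) :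
    cuspWidth Γ ((ModularGroup.T : SL(2, ℤ)) ^ i • x) = cuspWidth Γ x := by
  have hi : (cosetPerm Γ ModularGroup.T ^ i) x = (ModularGroup.T : SL(2, ℤ)) ^ i • x :=
    (DFunLike.congr_fun
      (map_pow (MulAction.toPermHom SL(2, ℤ) (Coset Γ)) ModularGroup.T i) x).symm
  rw [← hi]
  exact minimalPeriod_iterate_eq (cosetPerm Γ ModularGroup.T) x i

theorem cuspWidth_dvd {z : Coset Γ} {n : ℕ}
    (h : (ModularGroup.T : SL(2, ℤ)) ^ n • z = z) : cuspWidth Γ z ∣ n := by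
  rw [cuspWidth, ← Function.isPeriodicPt_iff_minimalPeriod_dvd, Function.IsPeriodicPt,
    Function.IsFixedPt, smul_iterate_apply, h]

theorem cuspRep_spec (o : PermOrbit (cosetPerm Γ ModularGroup.T)) :
    orbCls (cosetPerm Γ ModularGroup.T) (cuspRep Γ o) = o :=
  Function.surjInv_eq (orbCls_surjective _) o

/-- A positive parabolic element is conjugate to a positive power of some cusp generator. -/
theorem exists_cuspElt_pow [Finite (Coset Γ)] (g : Γ) (hg : IsPosParabolic (g : SL(2, ℤ))) :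
    ∃ (o : PermOrbit (cosetPerm Γ ModularGroup.T)) (k : ℕ) (γ : Γ),
      0 < k ∧ g = γ⁻¹ * cuspElt Γ (cuspRep Γ o) ^ k * γ := by
  obtain ⟨δ, n, hn, hgδ⟩ := hg.exists_conj_T
  set z := δ • baseCoset Γ with hz
  have hTz : (ModularGroup.T : SL(2, ℤ)) ^ n • z = z := by
    rw [hz, smul_smul, show ModularGroup.T ^ n * δ = δ * (g : SL(2, ℤ)) by rw [hgδ]; group,
      mul_smul, smul_baseCoset_of_mem]
  obtain ⟨r, hr⟩ : ∃ r, r = cuspRep Γ (orbCls _ z) := ⟨_, rfl⟩
  obtain ⟨i, hi⟩ : ∃ i : ℕ, z = (ModularGroup.T : SL(2, ℤ)) ^ i • r := by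
    obtain ⟨i, hi⟩ := ((orbCls_eq_iff _ _ _).1 (cuspRep_spec (orbCls _ z))).exists_nat_pow_eq
    refine ⟨i, ?_⟩
    rw [hr]
    exact hi.symm.trans (DFunLike.congr_fun
      (map_pow (MulAction.toPermHom SL(2, ℤ) (Coset Γ)) ModularGroup.T i) _).symm
  obtain ⟨k, hk⟩ : cuspWidth Γ r ∣ n := by
    rw [← cuspWidth_T_pow_smul i r, ← hi]; exact cuspWidth_dvd hTz
  have hmem : r.out⁻¹ * (ModularGroup.T ^ i)⁻¹ * δ ∈ Γ := by
    rw [mul_assoc, ← QuotientGroup.eq, QuotientGroup.out_eq', ← smul_baseCoset Γ (_ * δ),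
      mul_smul, ← hz, hi, inv_smul_smul]
  refine ⟨orbCls _ z, k, ⟨_, hmem⟩, Nat.pos_of_mul_pos_left (hk ▸ hn), ?_⟩
  rw [← hr]
  refine Subtype.ext ?_
  have e : (cuspElt Γ r : SL(2, ℤ)) ^ k = r.out⁻¹ * ModularGroup.T ^ n * r.out := by
    show (r.out⁻¹ * ModularGroup.T ^ cuspWidth Γ r * r.out) ^ k = _
    rw [hk, pow_mul]
    simpa only [inv_inv] using
      conj_pow (i := k) (a := r.out⁻¹) (b := ModularGroup.T ^ cuspWidth Γ r)
  rw [Subgroup.coe_mul, Subgroup.coe_mul, Subgroup.coe_inv, Subgroup.coe_pow, e, hgδ]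
  show _ = (r.out⁻¹ * (ModularGroup.T ^ i)⁻¹ * δ)⁻¹ * _ * (r.out⁻¹ * (ModularGroup.T ^ i)⁻¹ * δ)
  group

/-- Cusp generators are primitive and conjugate only for equal cusps. -/
theorem cuspElt_pow_unique [Finite (Coset Γ)] (hΓ : (-1 : SL(2, ℤ)) ∈ Γ)
    {o o' : PermOrbit (cosetPerm Γ ModularGroup.T)} {m : ℕ} (γ : Γ)
    (h : cuspElt Γ (cuspRep Γ o) = γ⁻¹ * cuspElt Γ (cuspRep Γ o') ^ m * γ) : o = o' ∧ m = 1 := by
  set r := cuspRep Γ o with hr
  set r' := cuspRep Γ o' with hr'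
  have h' : r'.out * (γ : SL(2, ℤ)) * r.out⁻¹ * ModularGroup.T ^ cuspWidth Γ r =
      ModularGroup.T ^ (cuspWidth Γ r' * m) * (r'.out * (γ : SL(2, ℤ)) * r.out⁻¹) := by
    have h1 : r.out⁻¹ * ModularGroup.T ^ cuspWidth Γ r * r.out = (γ : SL(2, ℤ))⁻¹ *
        (r'.out⁻¹ * ModularGroup.T ^ cuspWidth Γ r' * r'.out) ^ m * γ := congrArg Subtype.val h
    have h2 : ModularGroup.T ^ cuspWidth Γ r =
        r.out * (γ : SL(2, ℤ))⁻¹ * r'.out⁻¹ * ModularGroup.T ^ (cuspWidth Γ r' * m) *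
          r'.out * γ * r.out⁻¹ := by
      have h3 : (r'.out⁻¹ * ModularGroup.T ^ cuspWidth Γ r' * r'.out) ^ m =
          r'.out⁻¹ * ModularGroup.T ^ (cuspWidth Γ r' * m) * r'.out := by
        rw [pow_mul]
        simpa only [inv_inv] using
          conj_pow (i := m) (a := r'.out⁻¹) (b := ModularGroup.T ^ cuspWidth Γ r')
      rw [h3] at h1
      have h4 : r.out * (r.out⁻¹ * ModularGroup.T ^ cuspWidth Γ r * r.out) * r.out⁻¹ =
          ModularGroup.T ^ cuspWidth Γ r := by group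
      rw [← h4, h1]
      group
    rw [h2]
    group
  obtain ⟨hwm, j, hj⟩ := conj_T_pow_eq (cuspWidth_pos r) h'
  have hr1 : r' = (ModularGroup.T : SL(2, ℤ)) ^ j • r := by
    have h5 : r' = (r'.out * (γ : SL(2, ℤ)) * r.out⁻¹) • r := by
      conv_rhs => arg 2; rw [← QuotientGroup.out_eq' r, ← smul_baseCoset Γ r.out]
      rw [smul_smul, inv_mul_cancel_right, mul_smul, smul_baseCoset_of_mem, smul_baseCoset,
        QuotientGroup.out_eq']
    rcases hj with hj | hj <;> rw [hj] at h5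
    · exact h5
    · rwa [show -ModularGroup.T ^ j = -1 * ModularGroup.T ^ j by simp, mul_smul,
        neg_one_smul_coset hΓ] at h5
  have ho : o = o' := by
    rw [← cuspRep_spec o, ← cuspRep_spec o', ← hr, ← hr', orbCls_eq_iff]
    exact ⟨j, (DFunLike.congr_fun
      (map_zpow (MulAction.toPermHom SL(2, ℤ) (Coset Γ)) ModularGroup.T j) r).symm.trans hr1.symm⟩
  subst ho
  refine ⟨rfl, ?_⟩
  have := cuspWidth_pos r
  rw [← hr] at hr'
  rw [hr'] at hwm
  exact Nat.eq_of_mul_eq_mul_left this (by omega)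

theorem eq_neg_one_of_sq_eq_one {g : SL(2, ℤ)} (h : g ^ 2 = 1) (ht : g.1.trace = -2) :
    g = -1 := by
  have h00 := congrArg (fun m : SL(2, ℤ) => m.1 0 0) h
  have h01 := congrArg (fun m : SL(2, ℤ) => m.1 0 1) h
  have h10 := congrArg (fun m : SL(2, ℤ) => m.1 1 0) h
  simp [pow_two, Matrix.mul_apply, Fin.sum_univ_two] at h00 h01 h10
  rw [Matrix.trace_fin_two] at ht
  have hdet := g.det_coe
  rw [Matrix.det_fin_two] at hdet
  have hb' : g.1 0 1 * (g.1 0 0 + g.1 1 1) = 0 := by linarith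
  have hc' : g.1 1 0 * (g.1 0 0 + g.1 1 1) = 0 := by linarith
  rw [ht] at hb' hc'
  have hb : g.1 0 1 = 0 := by omega
  have hc : g.1 1 0 = 0 := by omega
  refine ConjClass.eq_of_entries ?_ ?_ ?_ ?_ <;> simp [hb, hc]
  · rw [hb, hc] at hdet h00; nlinarith
  · rw [hb, hc] at hdet h00; nlinarith

/-- Invariance of the pairing under an isomorphism of subgroups preserving traces and the sense
of rotation of parabolic elements (e.g. conjugation by a matrix of positive determinant). -/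
theorem cupPairing_congr [Finite (Coset Γ)] [Finite (Coset Γ')] (ι : Γ' ≃* Γ)
    (htr : ∀ g : Γ', ((ι g : Γ) : SL(2, ℤ)).1.trace = (g : SL(2, ℤ)).1.trace)
    (hpos : ∀ g : Γ', IsPosParabolic (g : SL(2, ℤ)) → IsPosParabolic ((ι g : Γ) : SL(2, ℤ)))
    (hΓ : (-1 : SL(2, ℤ)) ∈ Γ) (hΓ' : (-1 : SL(2, ℤ)) ∈ Γ') (φ ψ : homPar0 R Γ R)
    (φ' ψ' : homPar0 R Γ' R) (hφ : φ'.1 = φ.1.comp (MonoidHom.toAdditive ι.toMonoidHom))
    (hψ : ψ'.1 = ψ.1.comp (MonoidHom.toAdditive ι.toMonoidHom)) :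
    cupPairing R Γ' hΓ' φ' ψ' = cupPairing R Γ hΓ φ ψ := by
  obtain ⟨F, hF⟩ := exists_isCupPrimitive hΓ φ ψ
  have hell : ∀ g : Γ', IsEllOrCentral (g : SL(2, ℤ)) → IsEllOrCentral ((ι g : Γ) : SL(2, ℤ)) := by
    intro g hg
    rcases hg with hg | hg | hg
    · exact Or.inl (by rwa [htr])
    · rw [show g = 1 from Subtype.ext hg, map_one]
      exact Or.inr (Or.inl rfl)
    · refine Or.inr (Or.inr (eq_neg_one_of_sq_eq_one ?_ ?_))
      · rw [← Subgroup.coe_pow, ← map_pow,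
          show g ^ 2 = 1 from Subtype.ext (by rw [Subgroup.coe_pow, hg]; simp), map_one]
        rfl
      · rw [htr, hg]; simp
  have hF' : IsCupPrimitive φ'.1 ψ'.1 (fun g => F (ι g)) := by
    refine ⟨fun g h => ?_, fun g hg => hF.map_ell _ (hell g hg)⟩
    rw [map_mul, hF.map_mul, hφ, hψ]
    rfl
  rw [cupPairing_eq hΓ' φ' ψ' hF', cupPairing_eq hΓ φ ψ hF]
  have hpos' : ∀ g : Γ, IsPosParabolic (g : SL(2, ℤ)) →
      IsPosParabolic ((ι.symm g : Γ') : SL(2, ℤ)) := by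
    intro g hg
    have ht : ((ι.symm g : Γ') : SL(2, ℤ)).1.trace = 2 := by
      have := htr (ι.symm g)
      rw [MulEquiv.apply_symm_apply] at this
      rw [← this]; exact hg.1
    have hne : ((ι.symm g : Γ') : SL(2, ℤ)) ≠ 1 := fun h => hg.2.1 (by
      have : ι.symm g = 1 := Subtype.ext h
      rw [← ι.apply_symm_apply g, this, map_one]; rfl)
    obtain ⟨δ, n, h⟩ := ConjClass.exists_conj_eq_T_zpow _ (by rw [ht]; norm_num)
    have hh : ((ι.symm g : Γ') : SL(2, ℤ)) = δ⁻¹ * ModularGroup.T ^ n * δ := by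
      rcases h with h | h
      · rw [← h]; group
      · exfalso
        have e := congrArg (fun m : SL(2, ℤ) => m.1.trace) h
        simp only [ConjClass.trace_conj, ht] at e
        simp [ModularGroup.coe_T_zpow, Matrix.trace_fin_two] at e
    rcases lt_trichotomy n 0 with hn | hn | hn
    · exfalso
      have hinv : IsPosParabolic (((ι.symm g)⁻¹ : Γ') : SL(2, ℤ)) := by
        rw [Subgroup.coe_inv, hh]
        obtain ⟨m, hm⟩ : ∃ m : ℕ, n = -(m : ℤ) := ⟨n.natAbs, by omega⟩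
        rw [hm, zpow_neg, zpow_natCast]
        have e : (δ⁻¹ * (ModularGroup.T ^ m)⁻¹ * δ)⁻¹ = δ⁻¹ * ModularGroup.T ^ m * δ := by group
        rw [e]
        exact isPosParabolic_conj_T δ (by omega)
      have h2 := hpos _ hinv
      rw [map_inv, MulEquiv.apply_symm_apply, Subgroup.coe_inv] at h2
      obtain ⟨-, -, a1, a2⟩ := h2
      obtain ⟨hg1, hg2, b1, b2⟩ := hg
      simp [Matrix.adjugate_fin_two] at a1 a2
      refine hg2 ?_
      have hb : (g : SL(2, ℤ)).1 0 1 = 0 := by omega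
      have hc : (g : SL(2, ℤ)).1 1 0 = 0 := by omega
      have hdet := (g : SL(2, ℤ)).det_coe
      rw [Matrix.det_fin_two, hb, hc] at hdet
      rw [Matrix.trace_fin_two] at hg1
      refine ConjClass.eq_of_entries ?_ ?_ ?_ ?_ <;> simp [hb, hc] <;> nlinarith
    · exact absurd (by rw [hh, hn]; simp) hne
    · obtain ⟨m, rfl⟩ := Int.eq_ofNat_of_zero_le hn.le
      rw [hh, zpow_natCast]
      exact isPosParabolic_conj_T δ (by omega)
  choose f k γ hk hf using fun o => exists_cuspElt_pow (Γ := Γ) (ι (cuspElt Γ' (cuspRep Γ' o)))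
    (hpos _ (isPosParabolic_conj_T _ (cuspWidth_pos _)))
  choose f' k' γ' hk' hf' using fun o => exists_cuspElt_pow (Γ := Γ')
    (ι.symm (cuspElt Γ (cuspRep Γ o))) (hpos' _ (isPosParabolic_conj_T _ (cuspWidth_pos _)))
  have hback : ∀ o, f' (f o) = o ∧ k o = 1 := by
    intro o
    have e : cuspElt Γ' (cuspRep Γ' o) = (γ' (f o) * ι.symm (γ o))⁻¹ *
        cuspElt Γ' (cuspRep Γ' (f' (f o))) ^ (k' (f o) * k o) * (γ' (f o) * ι.symm (γ o)) := by
      have h1 := congrArg ι.symm (hf o)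
      rw [MulEquiv.symm_apply_apply, map_mul, map_mul, map_inv, map_pow, hf' (f o)] at h1
      rw [h1]
      have h2 : ((γ' (f o))⁻¹ * cuspElt Γ' (cuspRep Γ' (f' (f o))) ^ k' (f o) * γ' (f o)) ^ k o =
          (γ' (f o))⁻¹ * cuspElt Γ' (cuspRep Γ' (f' (f o))) ^ (k' (f o) * k o) * γ' (f o) := by
        rw [pow_mul]
        simpa only [inv_inv] using conj_pow (i := k o) (a := (γ' (f o))⁻¹)
          (b := cuspElt Γ' (cuspRep Γ' (f' (f o))) ^ k' (f o))
      rw [h2]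
      group
    obtain ⟨h1, h2⟩ := cuspElt_pow_unique hΓ' _ e
    exact ⟨h1.symm, Nat.eq_one_of_mul_eq_one_left h2⟩
  have hfwd : ∀ o, f (f' o) = o := by
    intro o
    have e : cuspElt Γ (cuspRep Γ o) = (γ (f' o) * ι (γ' o))⁻¹ *
        cuspElt Γ (cuspRep Γ (f (f' o))) ^ (k (f' o) * k' o) * (γ (f' o) * ι (γ' o)) := by
      have h1 := congrArg ι (hf' o)
      rw [MulEquiv.apply_symm_apply, map_mul, map_mul, map_inv, map_pow, hf (f' o)] at h1
      rw [h1]
      have h2 : ((γ (f' o))⁻¹ * cuspElt Γ (cuspRep Γ (f (f' o))) ^ k (f' o) * γ (f' o)) ^ k' o =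
          (γ (f' o))⁻¹ * cuspElt Γ (cuspRep Γ (f (f' o))) ^ (k (f' o) * k' o) * γ (f' o) := by
        rw [pow_mul]
        simpa only [inv_inv] using conj_pow (i := k' o) (a := (γ (f' o))⁻¹)
          (b := cuspElt Γ (cuspRep Γ (f (f' o))) ^ k (f' o))
      rw [h2]
      group
    exact (cuspElt_pow_unique hΓ _ e).1.symm
  refine finsum_eq_of_bijective f
    ⟨Function.LeftInverse.injective fun o => (hback o).1, fun o => ⟨f' o, hfwd o⟩⟩ fun o => ?_
  show F (ι (cuspElt Γ' (cuspRep Γ' o))) = _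
  rw [hf o, (hback o).2, pow_one]
  exact hF.map_conj _ _ (φ.2 _ (isSmallTrace_cuspElt _)) (ψ.2 _ (isSmallTrace_cuspElt _))

end FLTA.Gamma0
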