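import Fermat.Agent.Gamma0.Complex.Cup
import Mathlib.GroupTheory.Index

/-!
# Adjointness of the cup product pairing: restriction, transfer, conjugation
-/

set_option autoImplicit false

open scoped MatrixGroups

namespace FLTA.Gamma0

open Presentation Orbits

variable {R : Type*} [CommRing R] {Γ Γ' : Subgroup SL(2, ℤ)}

theorem IsEllOrCentral.isSmallTrace {g : SL(2, ℤ)} (hg : IsEllOrCentral g) : IsSmallTrace g := by
  rcases hg with hg | rfl | rfl
  · exact hg.le
  · simp [IsSmallTrace]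
  · simp [IsSmallTrace]

/-- The cocycle in `Γ'` of an element of `Γ` on the cosets of `Γ'` in `Γ`. -/
noncomputable def corElt (g : Γ) (y : Γ ⧸ Γ'.subgroupOf Γ) : Γ' :=
  ⟨(((g • y).out⁻¹ * g * y.out : Γ) : SL(2, ℤ)), by
    have h : ((g • y).out⁻¹ * g * y.out : Γ) ∈ Γ'.subgroupOf Γ := by
      rw [mul_assoc, ← QuotientGroup.eq, QuotientGroup.out_eq']
      conv_lhs => rw [← QuotientGroup.out_eq' y]
      rfl
    exact Subgroup.mem_subgroupOf.mp h⟩

theorem corElt_mul (g h : Γ) (y : Γ ⧸ Γ'.subgroupOf Γ) :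
    corElt (g * h) y = corElt g (h • y) * corElt h y := by
  refine Subtype.ext ?_
  show (((g * h) • y).out⁻¹ * (g * h) * y.out : Γ).1 =
    ((g • h • y).out⁻¹ * g * (h • y).out : Γ).1 * ((h • y).out⁻¹ * h * y.out : Γ).1
  rw [mul_smul, ← Subgroup.coe_mul]
  congr 1
  group

theorem isSmallTrace_pow {g : SL(2, ℤ)} (hg : IsSmallTrace g) (m : ℕ) : IsSmallTrace (g ^ m) := by
  rcases lt_or_eq_of_le hg with h | h
  · obtain ⟨δ, n, hδ⟩ := ConjClass.exists_conj_eq_pow g h
    have e : IsSmallTrace ((δ * g * δ⁻¹) ^ m) := by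
      rcases hδ with hδ | hδ <;> rw [hδ, ← pow_mul]
      · exact (isEllOrCentral_pow_S _).isSmallTrace
      · exact (isEllOrCentral_pow_matU _).isSmallTrace
    rw [conj_pow] at e
    unfold IsSmallTrace at e ⊢
    rwa [ConjClass.trace_conj] at e
  · obtain ⟨δ, n, hδ⟩ := ConjClass.exists_conj_eq_T_zpow g h
    have e : IsSmallTrace ((δ * g * δ⁻¹) ^ m) := by
      rcases hδ with hδ | hδ <;> rw [hδ]
      · unfold IsSmallTrace
        rw [← zpow_natCast, ← zpow_mul, ModularGroup.coe_T_zpow]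
        norm_num [Matrix.trace_fin_two]
      · unfold IsSmallTrace
        rw [neg_pow, ← zpow_natCast (ModularGroup.T ^ n), ← zpow_mul]
        rcases neg_one_pow_eq_or SL(2, ℤ) m with hm | hm <;>
          rw [hm] <;> simp [ModularGroup.coe_T_zpow, Matrix.trace_fin_two]
    rw [conj_pow] at e
    unfold IsSmallTrace at e ⊢
    rwa [ConjClass.trace_conj] at e

section transfer

variable [(Γ'.subgroupOf Γ).FiniteIndex]

/-- Corestriction (transfer) of a homomorphism. -/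
noncomputable def corHom {A : Type*} [AddCommGroup A] (ψ : Additive Γ' →+ A) : Additive Γ →+ A :=
  AddMonoidHom.mk' (fun g => ∑ᶠ y, ψ (Additive.ofMul (corElt (Additive.toMul g) y)))
    (fun g h => by
      have := Fintype.ofFinite (Γ ⧸ Γ'.subgroupOf Γ)
      simp only [finsum_eq_sum_of_fintype, toMul_add, corElt_mul, ofMul_mul, map_add,
        Finset.sum_add_distrib]
      exact congrArg (· + _) (Equiv.sum_comp (MulAction.toPerm (Additive.toMul h))
        fun y => ψ (Additive.ofMul (corElt (Additive.toMul g) y))))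

theorem corHom_isParHom0 {A : Type*} [AddCommGroup A] {ψ : Additive Γ' →+ A}
    (hψ : IsParHom0 Γ' ψ) : IsParHom0 Γ (corHom (Γ := Γ) ψ) := by
  intro g hg
  have := Fintype.ofFinite (Γ ⧸ Γ'.subgroupOf Γ)
  have hone : ∀ y : Γ ⧸ Γ'.subgroupOf Γ, corElt (1 : Γ) y = 1 := fun y =>
    Subtype.ext (by simp [corElt])
  have hper : ∀ (m : ℕ) (y : Γ ⧸ Γ'.subgroupOf Γ),
      ∑ i ∈ Finset.range m, ψ (Additive.ofMul (corElt g (g ^ i • y))) =
        ψ (Additive.ofMul (corElt (g ^ m) y)) := by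
    intro m y
    induction m with
    | zero => simp [hone]
    | succ m ih =>
      rw [Finset.sum_range_succ, ih, pow_succ', corElt_mul, ofMul_mul, map_add, add_comm]
  let π : Equiv.Perm (Γ ⧸ Γ'.subgroupOf Γ) := MulAction.toPerm g
  have hπ : ∀ (i : ℕ) (y : Γ ⧸ Γ'.subgroupOf Γ), (π ^ i) y = g ^ i • y := fun i y =>
    (DFunLike.congr_fun (map_pow (MulAction.toPermHom Γ (Γ ⧸ Γ'.subgroupOf Γ)) g i) y).symm
  obtain ⟨p, hp⟩ := (Orbits.exists_potential_iff_periods π
      (fun y => ψ (Additive.ofMul (corElt g y)))).2 fun y m hy => by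
    rw [hπ] at hy
    simp only [hπ, hper]
    refine hψ _ ?_
    show IsSmallTrace (((g ^ m • y).out⁻¹ * g ^ m * y.out : Γ) : SL(2, ℤ))
    rw [hy, Subgroup.coe_mul, Subgroup.coe_mul, Subgroup.coe_inv]
    have hsm : IsSmallTrace ((g ^ m : Γ) : SL(2, ℤ)) := by
      rw [Subgroup.coe_pow]; exact isSmallTrace_pow hg m
    unfold IsSmallTrace at hsm ⊢
    rwa [Matrix.SpecialLinearGroup.coe_mul, Matrix.SpecialLinearGroup.coe_mul,
      Matrix.trace_mul_cycle, ← Matrix.SpecialLinearGroup.coe_mul, mul_inv_cancel,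
      Matrix.SpecialLinearGroup.coe_one, one_mul]
  show ∑ᶠ y, ψ (Additive.ofMul (corElt g y)) = 0
  rw [finsum_eq_sum_of_fintype]
  simp only [← hp, Finset.sum_sub_distrib, Equiv.sum_comp π p, sub_self]

/-- Restriction of a refined parabolic homomorphism. -/
def resHom0 (h : Γ' ≤ Γ) (φ : homPar0 R Γ R) : homPar0 R Γ' R :=
  ⟨φ.1.comp (MonoidHom.toAdditive (Subgroup.inclusion h)), fun γ hγ => φ.2 ⟨γ.1, h γ.2⟩ hγ⟩

/-- The projection of cosets. -/
def cosetMap (hle : Γ' ≤ Γ) : Coset Γ' → Coset Γ := Subgroup.quotientMapOfLE hle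

omit [(Γ'.subgroupOf Γ).FiniteIndex] in
theorem cosetMap_smul (hle : Γ' ≤ Γ) (g : SL(2, ℤ)) (x : Coset Γ') :
    cosetMap hle (g • x) = g • cosetMap hle x := by
  induction x using QuotientGroup.induction_on with
  | _ a => rfl

open scoped Classical in
/-- Push forward of functions along the projection of cosets. -/
noncomputable def pushCoset [Fintype (Coset Γ')] (hle : Γ' ≤ Γ) (f : Coset Γ' → R)
    (x : Coset Γ) : R :=
  ∑ y ∈ Finset.univ.filter (fun y => cosetMap hle y = x), f y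

omit [(Γ'.subgroupOf Γ).FiniteIndex] in
theorem pushCoset_comp_smul [Fintype (Coset Γ')] (hle : Γ' ≤ Γ) (f : Coset Γ' → R)
    (g : SL(2, ℤ)) (x : Coset Γ) :
    pushCoset hle (fun y => f (g • y)) x = pushCoset hle f (g • x) := by
  classical
  exact Finset.sum_equiv (MulAction.toPerm g)
    (fun y => by simp [cosetMap_smul]) fun y _ => rfl

omit [(Γ'.subgroupOf Γ).FiniteIndex] in
theorem sum_mul_pushCoset [Fintype (Coset Γ')] [Fintype (Coset Γ)] (hle : Γ' ≤ Γ)
    (G : Coset Γ → R) (f : Coset Γ' → R) :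
    ∑ x, G x * pushCoset hle f x = ∑ y, G (cosetMap hle y) * f y := by
  classical
  rw [← Finset.sum_fiberwise Finset.univ (cosetMap hle)]
  refine Finset.sum_congr rfl fun x _ => ?_
  rw [pushCoset, Finset.mul_sum]
  exact Finset.sum_congr rfl fun y hy => by rw [(Finset.mem_filter.1 hy).2]

/-- The fibre of the base coset is `Γ ⧸ Γ'`. -/
theorem pushCoset_baseCoset [Fintype (Coset Γ')] (hle : Γ' ≤ Γ) (f : Coset Γ' → R) :
    pushCoset hle f (baseCoset Γ) =
      ∑ᶠ y : Γ ⧸ Γ'.subgroupOf Γ, f ((y.out : SL(2, ℤ)) • baseCoset Γ') := by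
  classical
  have := Fintype.ofFinite (Γ ⧸ Γ'.subgroupOf Γ)
  rw [finsum_eq_sum_of_fintype]
  symm
  refine Finset.sum_bij (fun y _ => (y.out : SL(2, ℤ)) • baseCoset Γ') (fun y _ => ?_)
    (fun y _ z _ h => ?_) (fun x hx => ?_) (fun y _ => rfl)
  · rw [Finset.mem_filter]
    refine ⟨Finset.mem_univ _, ?_⟩
    rw [cosetMap_smul]
    exact smul_baseCoset_of_mem Γ y.out
  · simp only [smul_baseCoset, QuotientGroup.eq] at h
    rw [← QuotientGroup.out_eq' y, ← QuotientGroup.out_eq' z]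
    exact QuotientGroup.eq.2 (Subgroup.mem_subgroupOf.2 (by simpa using h))
  · obtain ⟨a, rfl⟩ := QuotientGroup.mk_surjective x
    have ha : a ∈ Γ := by
      have h : (a : Coset Γ) = ((1 : SL(2, ℤ)) : Coset Γ) := (Finset.mem_filter.1 hx).2
      simpa using QuotientGroup.eq.1 h.symm
    refine ⟨((⟨a, ha⟩ : Γ) : Γ ⧸ Γ'.subgroupOf Γ), Finset.mem_univ _, ?_⟩
    rw [smul_baseCoset]
    have h := QuotientGroup.eq.1
      (QuotientGroup.out_eq' ((⟨a, ha⟩ : Γ) : Γ ⧸ Γ'.subgroupOf Γ))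
    exact QuotientGroup.eq.2 (by simpa using Subgroup.mem_subgroupOf.1 h)

omit [(Γ'.subgroupOf Γ).FiniteIndex] in
/-- The pull back of a normalised cocycle. -/
theorem exists_pullCocycle (hle : Γ' ≤ Γ) (c : cocycles R Γ R) :
    ∃ d : cocycles R Γ' R, (∀ g y, d.1 g y = c.1 g (cosetMap hle y)) ∧
      toHom R Γ' R d = (toHom R Γ R c).comp (MonoidHom.toAdditive (Subgroup.inclusion hle)) := by
  obtain ⟨p, hp⟩ := c.2.2.2.2
  refine ⟨⟨fun g y => c.1 g (cosetMap hle y), fun g h y => ?_, funext fun y => ?_, fun y hy => ?_,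
    p ∘ cosetMap hle, fun y => ?_⟩, fun g y => rfl, ?_⟩
  · show c.1 _ _ = c.1 _ _ + c.1 _ _
    rw [c.2.1, cosetMap_smul]
  · exact congrFun c.2.2.1 _
  · exact c.2.2.2.1 _ (by rw [← cosetMap_smul, hy])
  · show p _ - p _ = c.1 _ _
    rw [cosetMap_smul, hp]
  · exact AddMonoidHom.ext fun γ => rfl

/-- The push forward of a normalised cocycle. -/
theorem exists_pushCocycle [Fintype (Coset Γ')] (hle : Γ' ≤ Γ) (hΓ' : (-1 : SL(2, ℤ)) ∈ Γ')
    (c : cocycles R Γ' R) :
    ∃ d : cocycles R Γ R, (∀ g x, d.1 g x = pushCoset hle (c.1 g) x) ∧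
      toHom R Γ R d = corHom (toHom R Γ' R c) := by
  classical
  obtain ⟨p, hp⟩ := c.2.2.2.2
  refine ⟨⟨fun g => pushCoset hle (c.1 g), fun g h x => ?_, funext fun x => ?_, fun x hx => ?_,
    pushCoset hle p, fun x => ?_⟩, fun g x => rfl, ?_⟩
  · show pushCoset hle (c.1 (g * h)) x = pushCoset hle (c.1 g) (h • x) + pushCoset hle (c.1 h) x
    rw [← pushCoset_comp_smul]
    simp only [pushCoset, ← Finset.sum_add_distrib]
    exact Finset.sum_congr rfl fun y _ => c.2.1 g h y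
  · exact Finset.sum_eq_zero fun y _ => congrFun c.2.2.1 y
  · refine Finset.sum_involution (fun y _ => (ModularGroup.S : SL(2, ℤ)) • y)
      (fun y _ => ?_) (fun y _ hy hy' => hy (c.2.2.2.1 y hy')) (fun y hy => ?_)
      (fun y _ => S_smul_S_smul hΓ' y)
    · rw [cocycles_S_smul hΓ', add_neg_cancel]
    · rw [Finset.mem_filter] at hy ⊢
      exact ⟨Finset.mem_univ _, by rw [cosetMap_smul, hy.2, hx]⟩
  · show pushCoset hle p _ - pushCoset hle p x = pushCoset hle (c.1 ModularGroup.T) x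
    rw [← pushCoset_comp_smul]
    simp only [pushCoset, ← Finset.sum_sub_distrib]
    exact Finset.sum_congr rfl fun y _ => hp y
  · refine AddMonoidHom.ext fun γ => ?_
    obtain ⟨g, rfl⟩ : ∃ g : Γ, Additive.ofMul g = γ := ⟨γ.toMul, rfl⟩
    show pushCoset hle (c.1 (g : SL(2, ℤ))) (baseCoset Γ) =
      ∑ᶠ y : Γ ⧸ Γ'.subgroupOf Γ, c.1 ((corElt g y : Γ') : SL(2, ℤ)) (baseCoset Γ')
    rw [pushCoset_baseCoset]
    have := Fintype.ofFinite (Γ ⧸ Γ'.subgroupOf Γ)
    simp only [finsum_eq_sum_of_fintype]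
    let k : Γ ⧸ Γ'.subgroupOf Γ → R := fun y => c.1 (y.out : SL(2, ℤ)) (baseCoset Γ')
    have key : ∀ y, c.1 ((corElt g y : Γ') : SL(2, ℤ)) (baseCoset Γ') =
        c.1 (g : SL(2, ℤ)) ((y.out : SL(2, ℤ)) • baseCoset Γ') + (k y - k (g • y)) := by
      intro y
      have h1 := c.2.1 ((g • y).out : SL(2, ℤ)) ((corElt g y : Γ') : SL(2, ℤ)) (baseCoset Γ')
      rw [smul_baseCoset_of_mem, show (((g • y).out : Γ) : SL(2, ℤ)) * ((corElt g y : Γ') : SL(2, ℤ))
          = (g : SL(2, ℤ)) * (y.out : SL(2, ℤ)) by simp [corElt, mul_assoc],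
        c.2.1] at h1
      simp only [k]
      linear_combination -h1
    simp only [key, Finset.sum_add_distrib, Finset.sum_sub_distrib]
    have hs : ∑ y, k (g • y) = ∑ y, k y := Equiv.sum_comp (MulAction.toPerm g) k
    rw [hs, sub_self, add_zero]

/-- **Adjointness** of restriction and corestriction. -/
theorem cupPairing_res_left [Finite (Coset Γ)] [Finite (Coset Γ')] (hle : Γ' ≤ Γ)
    (hΓ : (-1 : SL(2, ℤ)) ∈ Γ) (hΓ' : (-1 : SL(2, ℤ)) ∈ Γ') (φ : homPar0 R Γ R)
    (ψ : homPar0 R Γ' R) :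
    cupPairing R Γ' hΓ' (resHom0 hle φ) ψ =
      cupPairing R Γ hΓ φ ⟨corHom ψ.1, corHom_isParHom0 ψ.2⟩ := by
  classical
  have := Fintype.ofFinite (Coset Γ)
  have := Fintype.ofFinite (Coset Γ')
  have := Fintype.ofFinite (Dart Γ)
  have := Fintype.ofFinite (Dart Γ')
  obtain ⟨c, hc⟩ := LinearMap.mem_range.1 (homPar0_le_range_toHom R Γ R hΓ φ.2)
  obtain ⟨c', hc'⟩ := LinearMap.mem_range.1 (homPar0_le_range_toHom R Γ' R hΓ' ψ.2)
  obtain ⟨p', hp'⟩ := c'.2.2.2.2
  obtain ⟨cr, hcr, hcr'⟩ := exists_pullCocycle hle c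
  obtain ⟨cc, hcc, hcc'⟩ := exists_pushCocycle hle hΓ' c'
  have hpc : ∀ x, pushCoset hle p' ((ModularGroup.T : SL(2, ℤ)) • x) - pushCoset hle p' x =
      cc.1 ModularGroup.T x := fun x => by
    rw [hcc, ← pushCoset_comp_smul]
    simp only [pushCoset, ← Finset.sum_sub_distrib]
    exact Finset.sum_congr rfl fun y _ => hp' y
  obtain ⟨F', hF', hS'⟩ := exists_isCupPrimitive_cocycles hΓ' cr c' p' hp'
  obtain ⟨F, hF, hS⟩ := exists_isCupPrimitive_cocycles hΓ c cc _ hpc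
  rw [hcc', hc, hc'] at hF
  rw [hcr', hc, hc'] at hF'
  rw [cupPairing_eq hΓ' (resHom0 hle φ) ψ hF',
    cupPairing_eq hΓ φ ⟨corHom ψ.1, corHom_isParHom0 ψ.2⟩ hF, hS, hS']
  simp only [finsum_eq_sum_of_fintype, hcr, hcc, cosetMap_smul]
  refine congrArg₂ (· + ·) ?_
    (sum_mul_pushCoset hle (fun x => c.1 ModularGroup.S (matU • x)) p').symm
  let G : Coset Γ → R := fun x =>
    if cosetIndex Γ x < cosetIndex Γ ((ModularGroup.S : SL(2, ℤ)) • x)
    then c.1 ModularGroup.S x else 0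
  have e : ∑ x, G x * pushCoset hle (c'.1 ModularGroup.S) x =
      ∑ d : Dart Γ, c.1 ModularGroup.S d.1 * pushCoset hle (c'.1 ModularGroup.S) d.1 := by
    simp only [G, ite_mul, zero_mul]
    rw [← Finset.sum_filter]
    exact Finset.sum_subtype (p := fun x =>
      cosetIndex Γ x < cosetIndex Γ ((ModularGroup.S : SL(2, ℤ)) • x)) _
      (fun x => by simp) _
  rw [← e, sum_mul_pushCoset, sum_coset hΓ',
    Finset.sum_eq_zero (s := Finset.univ.filter _) fun y hy => by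
      rw [c'.2.2.2.1 y (Finset.mem_filter.1 hy).2, mul_zero], add_zero]
  refine Finset.sum_congr rfl fun d _ => ?_
  rw [cocycles_S_smul hΓ', cosetMap_smul]
  generalize cosetMap hle d.1 = x
  simp only [G, S_smul_S_smul hΓ, cocycles_S_smul hΓ]
  split_ifs with h1 h2 h2
  · exact absurd h2 (lt_asymm h1)
  · ring
  · ring
  · rw [c.2.2.2.1 x (cosetIndex_injective Γ (le_antisymm (not_lt.1 h1) (not_lt.1 h2)))]
    ring

end transfer

end FLTA.Gamma0
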