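import Mathlib.GroupTheory.Perm.Cycle.Basic
import Mathlib.Dynamics.PeriodicPts.Lemmas
import Mathlib.Algebra.BigOperators.Group.Finset.Basic

/-!
# Orbits of a permutation of a finite set, potentials, orbit counts
-/

set_option autoImplicit false

open Finset

namespace FLTA.Gamma0.Orbits

variable {X : Type*}

/-- The set of orbits of a permutation. -/
def PermOrbit (π : Equiv.Perm X) : Type _ := Quotient (Equiv.Perm.SameCycle.setoid π)

/-- The orbit of a point. -/
def orbCls (π : Equiv.Perm X) (x : X) : PermOrbit π := Quotient.mk'' x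

theorem orbCls_surjective (π : Equiv.Perm X) : Function.Surjective (orbCls π) :=
  fun o => Quotient.inductionOn o fun x => ⟨x, rfl⟩

theorem orbCls_eq_iff (π : Equiv.Perm X) (x y : X) : orbCls π x = orbCls π y ↔ π.SameCycle x y :=
  Quotient.eq''

theorem orbCls_apply (π : Equiv.Perm X) (x : X) : orbCls π (π x) = orbCls π x :=
  ((orbCls_eq_iff π x (π x)).2 ⟨1, by simp⟩).symm

instance [Finite X] (π : Equiv.Perm X) : Finite (PermOrbit π) :=
  Finite.of_surjective _ (orbCls_surjective π)

/-- A function invariant under a permutation factors through its orbits. -/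
theorem exists_comp_orbCls {B : Type*} (π : Equiv.Perm X) (h : X → B) (hh : ∀ x, h (π x) = h x) :
    ∃ y : PermOrbit π → B, ∀ x, y (orbCls π x) = h x := by
  have hpow : ∀ (i : ℤ) (x : X), h ((π ^ i) x) = h x := by
    intro i
    induction i using Int.induction_on with
    | zero => simp
    | succ i ih => intro x; rw [zpow_add_one, Equiv.Perm.mul_apply, ih, hh]
    | pred i ih =>
      intro x
      rw [zpow_sub_one, Equiv.Perm.mul_apply, ih]
      rw [Equiv.Perm.inv_def]
      conv_rhs => rw [← π.apply_symm_apply x, hh]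
  refine ⟨fun o => Quotient.liftOn' o h fun a b hab => ?_, fun x => rfl⟩
  obtain ⟨i, rfl⟩ := hab
  exact (hpow i a).symm

/-- Every point is a natural power of `π` applied to a fixed point of its orbit. -/
theorem exists_rep_pow [Finite X] (π : Equiv.Perm X) :
    ∃ (rep : X → X) (m : X → ℕ), (∀ x, rep (π x) = rep x) ∧ ∀ x, (π ^ m x) (rep x) = x := by
  choose r hr using orbCls_surjective π
  have : ∀ x, ∃ i : ℕ, (π ^ i) (r (orbCls π x)) = x := fun x =>
    ((orbCls_eq_iff π _ _).1 (hr _)).exists_nat_pow_eq
  choose m hm using this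
  exact ⟨fun x => r (orbCls π x), m, fun x => congrArg r (orbCls_apply π x), hm⟩

/-- A function has a potential along `π` iff its sums over closed `π`-paths vanish. -/
theorem exists_potential_iff_periods [Finite X] {A : Type*} [AddCommGroup A] (π : Equiv.Perm X)
    (f : X → A) :
    (∃ p : X → A, ∀ x, p (π x) - p x = f x) ↔
      ∀ (x : X) (m : ℕ), (π ^ m) x = x → ∑ i ∈ range m, f ((π ^ i) x) = 0 := by
  constructor
  · rintro ⟨p, hp⟩ x m hm
    have h : ∀ i, f ((π ^ i) x) = p ((π ^ (i + 1)) x) - p ((π ^ i) x) := fun i => by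
      rw [pow_succ', Equiv.Perm.mul_apply, hp]
    simp only [h]
    rw [Finset.sum_range_sub (fun i => p ((π ^ i) x)), hm, pow_zero, Equiv.Perm.one_apply, sub_self]
  · intro hf
    obtain ⟨rep, m, hrep, hm⟩ := exists_rep_pow π
    have key : ∀ (y : X) (a b : ℕ), (π ^ a) y = (π ^ b) y → a ≤ b →
        ∑ i ∈ range a, f ((π ^ i) y) = ∑ i ∈ range b, f ((π ^ i) y) := by
      intro y a b hab hle
      obtain ⟨k, rfl⟩ := Nat.exists_eq_add_of_le hle
      have hk : (π ^ k) ((π ^ a) y) = (π ^ a) y := by
        rw [← Equiv.Perm.mul_apply, ← pow_add, add_comm, ← hab]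
      have := hf _ k hk
      rw [Finset.sum_range_add]
      have e : ∀ i, f ((π ^ (a + i)) y) = f ((π ^ i) ((π ^ a) y)) := fun i => by
        rw [← Equiv.Perm.mul_apply, ← pow_add, add_comm a i]
      simp only [e, this, add_zero]
    have key' : ∀ (y : X) (a b : ℕ), (π ^ a) y = (π ^ b) y →
        ∑ i ∈ range a, f ((π ^ i) y) = ∑ i ∈ range b, f ((π ^ i) y) := fun y a b hab =>
      (le_total a b).elim (key y a b hab) fun h => (key y b a hab.symm h).symm
    refine ⟨fun x => ∑ i ∈ range (m x), f ((π ^ i) (rep x)), fun x => ?_⟩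
    have h1 : ∑ i ∈ range (m (π x)), f ((π ^ i) (rep x)) =
        ∑ i ∈ range (m x + 1), f ((π ^ i) (rep x)) := by
      apply key'
      rw [pow_succ', Equiv.Perm.mul_apply, hm]
      nth_rewrite 1 [← hrep x]
      exact hm (π x)
    simp only [hrep, h1, Finset.sum_range_succ, hm]
    exact add_sub_cancel_left _ _

/-- An orbit is the injective image of an initial segment of length the period. -/
theorem filter_orbCls_eq [Fintype X] [DecidableEq X] (π : Equiv.Perm X)
    [DecidableEq (PermOrbit π)] (x : X) :
    univ.filter (fun y => orbCls π y = orbCls π x) =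
      (range (Function.minimalPeriod π x)).image (fun i => (π ^ i) x) := by
  ext y
  simp only [mem_filter, mem_univ, true_and, mem_image, mem_range, orbCls_eq_iff]
  constructor
  · intro h
    obtain ⟨i, rfl⟩ := h.symm.exists_nat_pow_eq
    refine ⟨i % Function.minimalPeriod π x, Nat.mod_lt _ ?_, ?_⟩
    · exact Function.minimalPeriod_pos_iff_mem_periodicPts.2
        (π.injective.mem_periodicPts x)
    · simp only [Equiv.Perm.coe_pow]
      exact Function.iterate_mod_minimalPeriod_eq
  · rintro ⟨i, -, rfl⟩
    exact (Equiv.Perm.sameCycle_pow_left.2 (Equiv.Perm.SameCycle.refl π x))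

theorem injOn_pow_minimalPeriod (π : Equiv.Perm X) (x : X) :
    Set.InjOn (fun i => (π ^ i) x) (range (Function.minimalPeriod π x)) := by
  simp only [Equiv.Perm.coe_pow, coe_range]
  exact Function.iterate_injOn_Iio_minimalPeriod

/-- A function has a potential along `π` iff its sums over the orbits vanish. -/
theorem exists_potential_iff_orbit_sum [Fintype X] {A : Type*} [AddCommGroup A] (π : Equiv.Perm X)
    [DecidableEq (PermOrbit π)] (f : X → A) :
    (∃ p : X → A, ∀ x, p (π x) - p x = f x) ↔
      ∀ o : PermOrbit π, ∑ x ∈ univ.filter (fun x => orbCls π x = o), f x = 0 := by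
  classical
  constructor
  · rintro ⟨p, hp⟩ o
    simp only [← hp, sum_sub_distrib]
    rw [sub_eq_zero]
    exact Finset.sum_equiv π (fun i => by simp [orbCls_apply]) fun i _ => rfl
  · intro hf
    refine (exists_potential_iff_periods π f).2 fun x m hm => ?_
    have h0 : ∑ i ∈ range (Function.minimalPeriod π x), f ((π ^ i) x) = 0 := by
      rw [← Finset.sum_image (f := f) (injOn_pow_minimalPeriod π x), ← filter_orbCls_eq π x]
      exact hf _
    obtain ⟨k, rfl⟩ : Function.minimalPeriod π x ∣ m := by
      rw [← Function.isPeriodicPt_iff_minimalPeriod_dvd]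
      rwa [Equiv.Perm.coe_pow] at hm
    clear hm
    induction k with
    | zero => simp
    | succ k ih =>
      rw [Nat.mul_succ, Finset.sum_range_add, ih, zero_add]
      refine (Finset.sum_congr rfl fun i _ => ?_).trans h0
      congr 1
      simp only [Equiv.Perm.coe_pow]
      rw [add_comm, Function.iterate_add_apply,
        ((Function.isPeriodicPt_minimalPeriod π x).mul_const k).eq]

/-- Orbit count of a permutation of prime exponent. -/
theorem mul_card_permOrbit [Finite X] (π : Equiv.Perm X) {q : ℕ} (hq : q.Prime) (hπ : π ^ q = 1) :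
    q * Nat.card (PermOrbit π) = Nat.card X + (q - 1) * Nat.card {x : X // π x = x} := by
  classical
  have := Fintype.ofFinite X
  have := Fintype.ofFinite (PermOrbit π)
  simp only [Nat.card_eq_fintype_card, Fintype.card_subtype]
  rw [← Finset.card_univ (α := X), ← Finset.card_univ (α := PermOrbit π),
    Finset.card_eq_sum_card_fiberwise (f := orbCls π) (t := univ) (fun _ _ => mem_univ _),
    Finset.card_eq_sum_card_fiberwise (f := orbCls π) (t := univ)
      (s := univ.filter fun x => π x = x) (fun _ _ => mem_univ _),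
    Finset.mul_sum, ← Finset.sum_add_distrib, mul_comm, ← smul_eq_mul, ← Finset.sum_const]
  refine Finset.sum_congr rfl fun o _ => ?_
  obtain ⟨x, rfl⟩ := orbCls_surjective π o
  rw [Finset.filter_filter]
  have hcard : (univ.filter fun y => orbCls π y = orbCls π x).card
      = Function.minimalPeriod π x := by
    rw [← card_range (Function.minimalPeriod π x), ← Finset.card_image_of_injOn (injOn_pow_minimalPeriod π x),
      ← filter_orbCls_eq π x]
  have hdvd : Function.minimalPeriod π x ∣ q := by
    rw [← Function.isPeriodicPt_iff_minimalPeriod_dvd]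
    show π^[q] x = x
    rw [← Equiv.Perm.coe_pow, hπ, Equiv.Perm.one_apply]
  by_cases hx : π x = x
  · have h1 : Function.minimalPeriod π x = 1 := Function.minimalPeriod_eq_one_iff_isFixedPt.2 hx
    have h2 : (univ.filter fun y => π y = y ∧ orbCls π y = orbCls π x)
        = univ.filter fun y => orbCls π y = orbCls π x := by
      refine Finset.filter_congr fun y _ => and_iff_right_of_imp fun hy => ?_
      obtain ⟨i, rfl⟩ := ((orbCls_eq_iff π _ _).1 hy).symm.exists_nat_pow_eq
      rw [Equiv.Perm.coe_pow, Function.iterate_fixed hx]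
      exact hx
    rw [h2, hcard, h1]
    have := hq.one_le
    omega
  · have h1 : Function.minimalPeriod π x = q :=
      (hq.eq_one_or_self_of_dvd _ hdvd).resolve_left fun h =>
        hx (Function.minimalPeriod_eq_one_iff_isFixedPt.1 h)
    have h2 : (univ.filter fun y => π y = y ∧ orbCls π y = orbCls π x) = ∅ := by
      refine Finset.filter_eq_empty_iff.2 fun y _ ⟨hy, hxy⟩ => hx ?_
      obtain ⟨i, hi⟩ := ((orbCls_eq_iff π _ _).1 hxy).exists_nat_pow_eq
      rw [Equiv.Perm.coe_pow, Function.iterate_fixed hy] at hi
      rw [← hi]; exact hy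
    rw [h2, hcard, h1]
    simp

end FLTA.Gamma0.Orbits
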