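import Mathlib.NumberTheory.Modular
import Fermat.Agent.Gamma0.Complex.Basic

/-!
# Elements of small trace in `SL(2, ℤ)`
-/

set_option autoImplicit false

open scoped MatrixGroups

namespace FLTA.Gamma0

/-- An element of small trace has finite order or is conjugate to `± T ^ n`. -/
theorem isSmallTrace_cases {g : SL(2, ℤ)} (hg : IsSmallTrace g) :
    g ^ 12 = 1 ∨ ∃ (h : SL(2, ℤ)) (n : ℤ),
      g = h * ModularGroup.T ^ n * h⁻¹ ∨ g = -(h * ModularGroup.T ^ n * h⁻¹) := by
  rcases lt_or_eq_of_le hg with h | h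
  · exact Or.inl (pow_twelve_eq_one h)
  · obtain ⟨δ, n, hδ⟩ := ConjClass.exists_conj_eq_T_zpow g h
    refine Or.inr ⟨δ⁻¹, n, ?_⟩
    rcases hδ with hδ | hδ
    · left; rw [← hδ]; group
    · right
      have hg' : g = δ⁻¹ * (δ * g * δ⁻¹) * δ := by group
      rw [hg', hδ, inv_inv]
      simp

end FLTA.Gamma0
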