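import Fermat.Agent.Gamma0.ComplexPresentation
import Fermat.Agent.Gamma0.Complex.Basic
import Fermat.Agent.Gamma0.Complex.Orbits
import Fermat.Agent.Gamma0.Complex.SmallTrace
import Mathlib.Algebra.BigOperators.Group.Finset.Basic

/-!
# Homomorphisms of `Γ` as normalised cocycles of `SL(2, ℤ)` on the cosets of `Γ`

For `X = SL(2,ℤ) ⧸ Γ`, a cocycle `c` with `c (g h) x = c g (h x) + c h x` gives the homomorphism
`γ ↦ c γ x₀` on `Γ`.
-/

set_option autoImplicit false

open scoped MatrixGroups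
open ModularGroup Finset

namespace FLTA.Gamma0

open Presentation Orbits

/-- The cosets of `Γ`. -/
abbrev Coset (Γ : Subgroup SL(2, ℤ)) : Type := SL(2, ℤ) ⧸ Γ

/-- The trivial coset. -/
def baseCoset (Γ : Subgroup SL(2, ℤ)) : Coset Γ := ((1 : SL(2, ℤ)) : Coset Γ)

theorem smul_baseCoset (Γ : Subgroup SL(2, ℤ)) (g : SL(2, ℤ)) :
    g • baseCoset Γ = (g : Coset Γ) := by
  show ((g * 1 : SL(2, ℤ)) : Coset Γ) = _
  rw [mul_one]

theorem smul_baseCoset_of_mem (Γ : Subgroup SL(2, ℤ)) (γ : Γ) :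
    (γ : SL(2, ℤ)) • baseCoset Γ = baseCoset Γ := by
  rw [smul_baseCoset]
  exact QuotientGroup.eq.2 (by simp)

/-- A cocycle on the cosets. -/
def IsCocycle {Γ : Subgroup SL(2, ℤ)} {A : Type*} [AddCommGroup A]
    (c : SL(2, ℤ) → Coset Γ → A) : Prop :=
  ∀ g h x, c (g * h) x = c g (h • x) + c h x

namespace IsCocycle

variable {Γ : Subgroup SL(2, ℤ)} {A : Type*} [AddCommGroup A] {c : SL(2, ℤ) → Coset Γ → A}

theorem map_one (hc : IsCocycle c) (x : Coset Γ) : c 1 x = 0 := by
  have h := hc 1 1 x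
  rw [one_smul, one_mul] at h
  exact left_eq_add.mp h

theorem map_inv (hc : IsCocycle c) (g : SL(2, ℤ)) (x : Coset Γ) :
    c g⁻¹ x = -c g (g⁻¹ • x) := by
  have h := hc g g⁻¹ x
  rw [mul_inv_cancel, hc.map_one] at h
  exact eq_neg_of_add_eq_zero_right h.symm

theorem map_pow (hc : IsCocycle c) (g : SL(2, ℤ)) :
    ∀ (m : ℕ) (x : Coset Γ), c (g ^ m) x = ∑ i ∈ range m, c g (g ^ i • x)
  | 0, x => by simp [hc.map_one]
  | m + 1, x => by
      rw [pow_succ', hc, sum_range_succ, map_pow hc g m x, add_comm]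

theorem ext_S_U (hc : IsCocycle c) {c' : SL(2, ℤ) → Coset Γ → A} (hc' : IsCocycle c')
    (hS : c ModularGroup.S = c' ModularGroup.S) (hU : c matU = c' matU) : c = c' := by
  let H : Subgroup SL(2, ℤ) :=
    { carrier := {g | c g = c' g}
      one_mem' := funext fun x => by rw [hc.map_one, hc'.map_one]
      mul_mem' := fun {g h} hg hh => funext fun x => by
        rw [hc, hc', show c g = c' g from hg, show c h = c' h from hh]
      inv_mem' := fun {g} hg => funext fun x => by
        rw [hc.map_inv, hc'.map_inv, show c g = c' g from hg] }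
  have hT : (ModularGroup.T : SL(2, ℤ)) ∈ H := by
    rw [show (ModularGroup.T : SL(2, ℤ)) = ModularGroup.S⁻¹ * matU from
      (inv_mul_cancel_left ModularGroup.S ModularGroup.T).symm]
    exact H.mul_mem (H.inv_mem hS) hU
  have hle : Subgroup.closure {ModularGroup.S, ModularGroup.T} ≤ H := by
    rw [Subgroup.closure_le]
    rintro g (rfl | rfl)
    exacts [hS, hT]
  rw [SpecialLinearGroup.SL2Z_generators] at hle
  exact funext fun g => hle (Subgroup.mem_top g)

end IsCocycle

theorem neg_one_smul_coset {Γ : Subgroup SL(2, ℤ)} (hΓ : (-1 : SL(2, ℤ)) ∈ Γ) (x : Coset Γ) :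
    (-1 : SL(2, ℤ)) • x = x := by
  induction x using QuotientGroup.induction_on with
  | _ g =>
    show ((-1 * g : SL(2, ℤ)) : Coset Γ) = g
    rw [QuotientGroup.eq]
    simpa [mul_assoc] using hΓ

/-- Normalised cocycles: killed on `S T` and on the fixed points of `S`, with a potential along
the cusps. -/
def cocycles (R : Type*) [Semiring R] (Γ : Subgroup SL(2, ℤ)) (A : Type*) [AddCommGroup A]
    [Module R A] : Submodule R (SL(2, ℤ) → Coset Γ → A) where
  carrier := {c | IsCocycle c ∧ c matU = 0 ∧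
    (∀ x, (ModularGroup.S : SL(2, ℤ)) • x = x → c ModularGroup.S x = 0) ∧
    ∃ p : Coset Γ → A, ∀ x, p ((ModularGroup.T : SL(2, ℤ)) • x) - p x = c ModularGroup.T x}
  zero_mem' := ⟨fun _ _ _ => (add_zero _).symm, rfl, fun _ _ => rfl, 0, fun _ => sub_zero _⟩
  add_mem' := by
    rintro c c' ⟨hc, hU, hS, p, hp⟩ ⟨hc', hU', hS', p', hp'⟩
    refine ⟨fun g h x => ?_, ?_, fun x hx => ?_, p + p', fun x => ?_⟩
    · simp only [Pi.add_apply, hc g h x, hc' g h x]; abel
    · simp [hU, hU']
    · simp [hS x hx, hS' x hx]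
    · simp only [Pi.add_apply, ← hp x, ← hp' x]; abel
  smul_mem' := by
    rintro r c ⟨hc, hU, hS, p, hp⟩
    refine ⟨fun g h x => ?_, ?_, fun x hx => ?_, r • p, fun x => ?_⟩
    · simp only [Pi.smul_apply, hc g h x, smul_add]
    · simp [hU]
    · simp [hS x hx]
    · simp only [Pi.smul_apply, ← hp x, smul_sub]

section

variable {R : Type*} [Semiring R] {Γ : Subgroup SL(2, ℤ)} {A : Type*} [AddCommGroup A] [Module R A]

theorem cocycles_neg_one (c : cocycles R Γ A) (x : Coset Γ) : c.1 (-1) x = 0 := by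
  rw [← matU_cube, c.2.1.map_pow]
  exact sum_eq_zero fun i _ => congrFun c.2.2.1 _

theorem cocycles_neg (hΓ : (-1 : SL(2, ℤ)) ∈ Γ) (c : cocycles R Γ A) (g : SL(2, ℤ))
    (x : Coset Γ) : c.1 (-g) x = c.1 g x := by
  rw [show -g = -1 * g by simp, c.2.1, cocycles_neg_one, zero_add]

theorem cocycles_S_smul (hΓ : (-1 : SL(2, ℤ)) ∈ Γ) (c : cocycles R Γ A) (x : Coset Γ) :
    c.1 ModularGroup.S ((ModularGroup.S : SL(2, ℤ)) • x) = -c.1 ModularGroup.S x := by
  have h := c.2.1 ModularGroup.S ModularGroup.S x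
  rw [← pow_two, S_sq, cocycles_neg_one] at h
  exact eq_neg_of_add_eq_zero_left h.symm

theorem cocycles_T (hΓ : (-1 : SL(2, ℤ)) ∈ Γ) (c : cocycles R Γ A) (x : Coset Γ) :
    c.1 ModularGroup.T x = c.1 ModularGroup.S (matU • x) := by
  have hT : (ModularGroup.T : SL(2, ℤ)) = -(ModularGroup.S * matU) := by decide +kernel
  rw [hT, cocycles_neg hΓ, c.2.1, c.2.2.1, Pi.zero_apply, add_zero]

/-- A normalised cocycle vanishes at every fixed point of a power of `T`. -/
theorem cocycles_T_zpow (c : cocycles R Γ A) (n : ℤ) (x : Coset Γ)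
    (hx : (ModularGroup.T : SL(2, ℤ)) ^ n • x = x) : c.1 (ModularGroup.T ^ n) x = 0 := by
  obtain ⟨p, hp⟩ := c.2.2.2.2
  have hnat : ∀ (m : ℕ) (y : Coset Γ),
      c.1 (ModularGroup.T ^ m) y = p ((ModularGroup.T : SL(2, ℤ)) ^ m • y) - p y := by
    intro m y
    have hsum := sum_range_sub (fun i => p ((ModularGroup.T : SL(2, ℤ)) ^ i • y)) m
    simp only [pow_zero, one_smul] at hsum
    rw [c.2.1.map_pow, ← hsum]
    exact sum_congr rfl fun i _ => by rw [← hp, ← mul_smul, ← pow_succ']
  cases n with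
  | ofNat m =>
    rw [Int.ofNat_eq_natCast, zpow_natCast] at hx ⊢
    rw [hnat, hx, sub_self]
  | negSucc m =>
    rw [zpow_negSucc] at hx ⊢
    rw [c.2.1.map_inv, hnat, hx, neg_eq_zero]
    rw [inv_smul_eq_iff] at hx
    rw [← hx, sub_self]

end

section toHom

variable (R : Type*) [Semiring R] (Γ : Subgroup SL(2, ℤ)) (A : Type*) [AddCommGroup A] [Module R A]

/-- The homomorphism attached to a normalised cocycle. -/
def toHom : cocycles R Γ A →ₗ[R] (Additive Γ →+ A) where
  toFun c := AddMonoidHom.mk' (fun γ => c.1 ((Additive.toMul γ : Γ) : SL(2, ℤ)) (baseCoset Γ))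
    fun γ δ => by
      show c.1 (((Additive.toMul γ : Γ) : SL(2, ℤ)) * ((Additive.toMul δ : Γ) : SL(2, ℤ))) _ = _
      rw [c.2.1, smul_baseCoset_of_mem]
  map_add' _ _ := rfl
  map_smul' _ _ := rfl

variable {R Γ A}

@[simp] theorem toHom_apply (c : cocycles R Γ A) (γ : Γ) :
    toHom R Γ A c (Additive.ofMul γ) = c.1 (γ : SL(2, ℤ)) (baseCoset Γ) :=
  rfl

/-- Over torsion free coefficients the attached homomorphism is parabolic in the refined sense. -/
theorem toHom_mem_homPar0 (hΓ : (-1 : SL(2, ℤ)) ∈ Γ) [IsAddTorsionFree A] (c : cocycles R Γ A) :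
    toHom R Γ A c ∈ homPar0 R Γ A := by
  rintro ⟨g, hgΓ⟩ hg
  have hfix : g • baseCoset Γ = baseCoset Γ := smul_baseCoset_of_mem Γ ⟨g, hgΓ⟩
  rcases isSmallTrace_cases hg with h12 | ⟨h, n, hn⟩
  · have h0 : (12 : ℕ) • toHom R Γ A c (Additive.ofMul ⟨g, hgΓ⟩) = 0 := by
      rw [← map_nsmul, ← ofMul_pow]
      have : (⟨g, hgΓ⟩ : Γ) ^ 12 = 1 := Subtype.ext (by simpa using h12)
      rw [this, ofMul_one, map_zero]
    exact (nsmul_eq_zero_iff_right (by norm_num)).mp h0
  · show c.1 g (baseCoset Γ) = 0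
    have hc : c.1 g (baseCoset Γ) = c.1 (h * ModularGroup.T ^ n * h⁻¹) (baseCoset Γ) := by
      rcases hn with rfl | rfl
      · rfl
      · rw [cocycles_neg hΓ]
    have hfix' : (h * ModularGroup.T ^ n * h⁻¹) • baseCoset Γ = baseCoset Γ := by
      rcases hn with rfl | rfl
      · exact hfix
      · rwa [show -(h * ModularGroup.T ^ n * h⁻¹) = -1 * (h * ModularGroup.T ^ n * h⁻¹) by simp,
          mul_smul, neg_one_smul_coset hΓ] at hfix
    rw [mul_smul, mul_smul, smul_eq_iff_eq_inv_smul] at hfix'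
    rw [hc, c.2.1, c.2.1, cocycles_T_zpow c n _ hfix', add_zero, hfix', c.2.1.map_inv,
      add_neg_cancel]

end toHom

section coboundary

variable (R : Type*) [Semiring R] (Γ : Subgroup SL(2, ℤ)) (A : Type*) [AddCommGroup A] [Module R A]

/-- The translation action of an element as a permutation. -/
abbrev cosetPerm (g : SL(2, ℤ)) : Equiv.Perm (Coset Γ) := MulAction.toPerm g

/-- Coboundaries of the functions on the orbits of `S T`. -/
def coboundary : (PermOrbit (cosetPerm Γ matU) → A) →ₗ[R] cocycles R Γ A where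
  toFun y := ⟨fun g x => y (orbCls _ (g • x)) - y (orbCls _ x), by
    refine ⟨fun g h x => by dsimp only; rw [mul_smul]; abel, funext fun x => ?_, fun x hx => by simp [hx],
      fun x => y (orbCls _ x), fun x => rfl⟩
    have := orbCls_apply (cosetPerm Γ matU) x
    simp only [MulAction.toPerm_apply] at this
    simp [this]⟩
  map_add' y y' := Subtype.ext (funext fun g => funext fun x => by
    simp only [Pi.add_apply, Submodule.coe_add]; abel)
  map_smul' r y := Subtype.ext (funext fun g => funext fun x => by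
    simp only [Pi.smul_apply, RingHom.id_apply, SetLike.val_smul, smul_sub])

theorem coboundary_apply (y : PermOrbit (cosetPerm Γ matU) → A) (g : SL(2, ℤ)) (x : Coset Γ) :
    (coboundary R Γ A y).1 g x = y (orbCls _ (g • x)) - y (orbCls _ x) :=
  rfl

theorem ker_toHom : LinearMap.ker (toHom R Γ A) = LinearMap.range (coboundary R Γ A) := by
  ext c
  constructor
  · intro hc
    have hγ : ∀ γ : Γ, c.1 (γ : SL(2, ℤ)) (baseCoset Γ) = 0 := fun γ =>
      DFunLike.congr_fun (LinearMap.mem_ker.mp hc) (Additive.ofMul γ)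
    have hindep : ∀ g g' : SL(2, ℤ), (g : Coset Γ) = g' →
        c.1 g (baseCoset Γ) = c.1 g' (baseCoset Γ) := by
      intro g g' hg
      have hm : g⁻¹ * g' ∈ Γ := QuotientGroup.eq.1 hg
      rw [show g' = g * (g⁻¹ * g') by group, c.2.1,
        smul_baseCoset_of_mem Γ ⟨g⁻¹ * g', hm⟩, hγ ⟨g⁻¹ * g', hm⟩, add_zero]
    let h : Coset Γ → A := fun x => c.1 x.out (baseCoset Γ)
    have key : ∀ g x, c.1 g x = h (g • x) - h x := by
      intro g x
      have e : h (g • x) = c.1 (g * x.out) (baseCoset Γ) := by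
        refine hindep _ _ ?_
        rw [QuotientGroup.out_eq', ← smul_baseCoset Γ (g * x.out), mul_smul,
          smul_baseCoset Γ x.out, QuotientGroup.out_eq']
      rw [e, c.2.1, smul_baseCoset, QuotientGroup.out_eq', add_sub_cancel_right]
    obtain ⟨y, hy⟩ := exists_comp_orbCls (cosetPerm Γ matU) h fun x => sub_eq_zero.mp
      ((key matU x).symm.trans (congrFun c.2.2.1 x))
    exact ⟨y, Subtype.ext (funext fun g => funext fun x => by
      rw [coboundary_apply, hy, hy, key])⟩
  · rintro ⟨y, rfl⟩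
    refine LinearMap.mem_ker.mpr (AddMonoidHom.ext fun γ => ?_)
    show y (orbCls _ ((Additive.toMul γ : Γ) • baseCoset Γ)) - _ = 0
    rw [show (Additive.toMul γ : Γ) • baseCoset Γ = baseCoset Γ from smul_baseCoset_of_mem Γ _,
      sub_self]

/-- Every refined parabolic homomorphism comes from a normalised cocycle. -/
theorem homPar0_le_range_toHom [Finite (Coset Γ)] (hΓ : (-1 : SL(2, ℤ)) ∈ Γ) :
    homPar0 R Γ A ≤ LinearMap.range (toHom R Γ A) := by
  intro φ hφ
  have mem : ∀ (g : SL(2, ℤ)) (x : Coset Γ), ((g • x).out)⁻¹ * g * x.out ∈ Γ := by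
    intro g x
    rw [mul_assoc, ← QuotientGroup.eq, QuotientGroup.out_eq', ← smul_baseCoset Γ (g * x.out),
      mul_smul, smul_baseCoset Γ x.out, QuotientGroup.out_eq']
  let c₀ : SL(2, ℤ) → Coset Γ → A := fun g x => φ (Additive.ofMul ⟨_, mem g x⟩)
  have hc₀ : IsCocycle c₀ := by
    intro g h x
    show φ _ = φ _ + φ _
    rw [← map_add]
    refine congrArg φ (congrArg Additive.ofMul (Subtype.ext ?_))
    show ((g * h) • x).out⁻¹ * (g * h) * x.out
      = (g • h • x).out⁻¹ * g * (h • x).out * ((h • x).out⁻¹ * h * x.out)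
    rw [mul_smul]
    group
  have small : ∀ g x, g • x = x → IsSmallTrace g → c₀ g x = 0 := by
    intro g x hx hg
    refine hφ _ ?_
    show IsSmallTrace ((g • x).out⁻¹ * g * x.out)
    rw [hx]
    unfold IsSmallTrace at hg ⊢
    rw [Matrix.SpecialLinearGroup.coe_mul, Matrix.SpecialLinearGroup.coe_mul,
      Matrix.trace_mul_cycle, ← Matrix.SpecialLinearGroup.coe_mul, mul_inv_cancel,
      Matrix.SpecialLinearGroup.coe_one, one_mul]
    exact hg
  have periods : ∀ g : SL(2, ℤ), (∀ m : ℕ, IsSmallTrace (g ^ m)) →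
      ∀ (x : Coset Γ) (m : ℕ), (cosetPerm Γ g ^ m) x = x →
        ∑ i ∈ range m, c₀ g ((cosetPerm Γ g ^ i) x) = 0 := by
    intro g hg x m hx
    have hpow : ∀ (i : ℕ) (y : Coset Γ), (cosetPerm Γ g ^ i) y = g ^ i • y := fun i y =>
      (DFunLike.congr_fun (map_pow (MulAction.toPermHom SL(2, ℤ) (Coset Γ)) g i) y).symm
    rw [hpow] at hx
    simp only [hpow, ← hc₀.map_pow]
    exact small _ _ hx (hg m)
  have trU : ∀ m : ℕ, IsSmallTrace (matU ^ m) := by
    intro m
    rw [← Nat.div_add_mod m 6, pow_add, pow_mul,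
      show matU ^ 6 = 1 by decide +kernel, one_pow, one_mul]
    have h6 : m % 6 < 6 := Nat.mod_lt _ (by norm_num)
    revert h6
    generalize m % 6 = j
    intro h6
    unfold IsSmallTrace
    interval_cases j <;> decide +kernel
  have trT : ∀ m : ℕ, IsSmallTrace (ModularGroup.T ^ m) := by
    intro m
    unfold IsSmallTrace
    rw [← zpow_natCast, ModularGroup.coe_T_zpow]
    norm_num [Matrix.trace_fin_two]
  obtain ⟨h, hh⟩ := (exists_potential_iff_periods (cosetPerm Γ matU) (c₀ matU)).2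
    (periods matU trU)
  obtain ⟨p, hp⟩ := (exists_potential_iff_periods (cosetPerm Γ ModularGroup.T)
    (c₀ ModularGroup.T)).2 (periods ModularGroup.T trT)
  refine ⟨⟨fun g x => c₀ g x - (h (g • x) - h x), ?_, ?_, ?_, p - h, ?_⟩, ?_⟩
  · intro g g' x
    dsimp only
    rw [hc₀ g g' x, mul_smul]
    abel
  · exact funext fun x => sub_eq_zero.mpr (hh x).symm
  · intro x hx
    dsimp only
    rw [small _ x hx (by unfold IsSmallTrace; decide +kernel), hx, sub_self, sub_zero]
  · intro x
    simp only [Pi.sub_apply, ← hp x, MulAction.toPerm_apply]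
    abel
  · refine AddMonoidHom.ext fun γ => ?_
    show c₀ ((Additive.toMul γ : Γ) : SL(2, ℤ)) (baseCoset Γ) - _ = φ γ
    rw [smul_baseCoset_of_mem, sub_self, sub_zero]
    have hb : (baseCoset Γ).out ∈ Γ := by
      have := (QuotientGroup.eq.1 (QuotientGroup.out_eq' (baseCoset Γ)).symm)
      simpa using this
    have e : (⟨_, mem ((Additive.toMul γ : Γ) : SL(2, ℤ)) (baseCoset Γ)⟩ : Γ)
        = ⟨_, hb⟩⁻¹ * Additive.toMul γ * ⟨_, hb⟩ := by
      refine Subtype.ext ?_
      show (((Additive.toMul γ : Γ) : SL(2, ℤ)) • baseCoset Γ).out⁻¹ * _ * _ = _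
      rw [smul_baseCoset_of_mem]
      rfl
    show φ (Additive.ofMul _) = φ γ
    rw [e, ofMul_mul, ofMul_mul, map_add, map_add, ofMul_inv, map_neg, ofMul_toMul]
    abel

end coboundary

section existence

variable {Γ : Subgroup SL(2, ℤ)} {A : Type*} [AddCommGroup A]

/-- A cocycle with prescribed value on `S` and zero on `S T`. -/
theorem exists_isCocycle (hΓ : (-1 : SL(2, ℤ)) ∈ Γ) (a : Coset Γ → A)
    (ha : ∀ x, a ((ModularGroup.S : SL(2, ℤ)) • x) + a x = 0) :
    ∃ c : SL(2, ℤ) → Coset Γ → A, IsCocycle c ∧ c ModularGroup.S = a ∧ c matU = 0 := by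
  have hS2 : ∀ x : Coset Γ, (ModularGroup.S : SL(2, ℤ)) • (ModularGroup.S : SL(2, ℤ)) • x = x :=
    fun x => by rw [← mul_smul, ← pow_two, S_sq, neg_one_smul_coset hΓ]
  let p : Equiv.Perm (Coset Γ × A) :=
    Function.Involutive.toPerm (fun z => ((ModularGroup.S : SL(2, ℤ)) • z.1, z.2 + a z.1))
      fun z => Prod.ext (hS2 z.1) (by
        show z.2 + a z.1 + a ((ModularGroup.S : SL(2, ℤ)) • z.1) = z.2
        rw [add_assoc, add_comm (a z.1), ha, add_zero])
  let q : Equiv.Perm (Coset Γ × A) := (cosetPerm Γ matU).prodCongr (Equiv.refl A)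
  have hp : p ^ 2 = 1 := Equiv.ext fun z => by
    rw [pow_two, Equiv.Perm.mul_apply, Equiv.Perm.one_apply]
    exact Function.Involutive.toPerm_involutive _ z
  have hq : q ^ 3 = 1 := Equiv.ext fun z => by
    show q (q (q z)) = z
    refine Prod.ext ?_ rfl
    show matU • matU • matU • z.1 = z.1
    rw [← mul_smul, ← mul_smul, ← pow_three', matU_cube, neg_one_smul_coset hΓ]
  let G := sl2Lift p q hp hq
  let Good : Equiv.Perm (Coset Γ × A) → SL(2, ℤ) → Prop := fun σ g =>
    ∀ x t, σ (x, t) = (g • x, t + (σ (x, 0)).2)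
  have good : ∀ g, Good (G g) g := by
    let H : Subgroup SL(2, ℤ) :=
      { carrier := {g | Good (G g) g}
        one_mem' := fun x t => by simp
        mul_mem' := fun {g h} hg hh x t => by
          show G (g * h) (x, t) = ((g * h) • x, t + (G (g * h) (x, 0)).2)
          rw [map_mul, Equiv.Perm.mul_apply, Equiv.Perm.mul_apply, hh x t, hg, hh x 0, hg (h • x)
            (0 + _), mul_smul]
          refine Prod.ext rfl ?_
          simp only [zero_add]
          abel
        inv_mem' := fun {g} hg x t => by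
          show G g⁻¹ (x, t) = (g⁻¹ • x, t + (G g⁻¹ (x, 0)).2)
          have key : ∀ t, G g⁻¹ (x, t) = (g⁻¹ • x, t - (G g (g⁻¹ • x, 0)).2) := fun t => by
            rw [map_inv, Equiv.Perm.inv_eq_iff_eq, hg, smul_inv_smul, sub_add_cancel]
          rw [key, key 0]
          refine Prod.ext rfl ?_
          simp only [zero_sub]
          abel }
    have hS : (ModularGroup.S : SL(2, ℤ)) ∈ H := fun x t => by
      show G ModularGroup.S (x, t) = _
      rw [sl2Lift_S]
      exact Prod.ext rfl (by show t + a x = t + (0 + a x); rw [zero_add])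
    have hU : matU ∈ H := fun x t => by
      show G matU (x, t) = _
      rw [sl2Lift_matU]
      exact Prod.ext rfl (by show t = t + 0; rw [add_zero])
    have hle : Subgroup.closure {ModularGroup.S, ModularGroup.T} ≤ H := by
      rw [Subgroup.closure_le]
      rintro g (rfl | rfl)
      · exact hS
      · rw [show (ModularGroup.T : SL(2, ℤ)) = ModularGroup.S⁻¹ * matU from
          (inv_mul_cancel_left ModularGroup.S ModularGroup.T).symm]
        exact H.mul_mem (H.inv_mem hS) hU
    rw [SpecialLinearGroup.SL2Z_generators] at hle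
    exact fun g => hle (Subgroup.mem_top g)
  refine ⟨fun g x => (G g (x, 0)).2, fun g h x => ?_, funext fun x => ?_, funext fun x => ?_⟩
  · dsimp only
    rw [map_mul, Equiv.Perm.mul_apply, good h x 0, good g (h • x) (0 + _), zero_add, add_comm]
  · show (G ModularGroup.S (x, 0)).2 = a x
    rw [sl2Lift_S]
    exact zero_add (a x)
  · show (G matU (x, 0)).2 = 0
    rw [sl2Lift_matU]
    rfl

end existence

end FLTA.Gamma0
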