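import Fermat.Agent.Gamma0.Complex.CupExists
import Fermat.Agent.Gamma0.Complex.Universal
import Mathlib.LinearAlgebra.Dual.Lemmas

/-!
# The cup product pairing on refined parabolic homomorphisms
-/

set_option autoImplicit false

open scoped MatrixGroups
open Module

namespace FLTA.Gamma0

open Presentation Orbits

variable {R : Type*} [CommRing R] {Γ : Subgroup SL(2, ℤ)} [Finite (Coset Γ)]

theorem exists_isCupPrimitive (hΓ : (-1 : SL(2, ℤ)) ∈ Γ) (φ ψ : homPar0 R Γ R) :
    ∃ F : Γ → R, IsCupPrimitive φ.1 ψ.1 F := by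
  obtain ⟨c, hc⟩ := homPar0_le_range_toHom R Γ R hΓ φ.2
  obtain ⟨c', hc'⟩ := homPar0_le_range_toHom R Γ R hΓ ψ.2
  obtain ⟨p, hp⟩ := c'.2.2.2.2
  obtain ⟨F, hF, -⟩ := exists_isCupPrimitive_cocycles hΓ c c' p hp
  exact ⟨F, hc ▸ hc' ▸ hF⟩

theorem IsCupPrimitive.add_left {φ φ' ψ : Additive Γ →+ R} {F F' : Γ → R}
    (hF : IsCupPrimitive φ ψ F) (hF' : IsCupPrimitive φ' ψ F') :
    IsCupPrimitive (φ + φ') ψ (F + F') where
  map_mul g h := by
    simp only [Pi.add_apply, AddMonoidHom.add_apply, hF.map_mul, hF'.map_mul]; ring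
  map_ell g hg := by simp [hF.map_ell g hg, hF'.map_ell g hg]

theorem IsCupPrimitive.smul_left {φ ψ : Additive Γ →+ R} {F : Γ → R} (r : R)
    (hF : IsCupPrimitive φ ψ F) : IsCupPrimitive (r • φ) ψ (r • F) where
  map_mul g h := by
    simp only [Pi.smul_apply, AddMonoidHom.smul_apply, hF.map_mul, smul_eq_mul]; ring
  map_ell g hg := by simp [hF.map_ell g hg]

theorem IsCupPrimitive.add_right {φ ψ ψ' : Additive Γ →+ R} {F F' : Γ → R}
    (hF : IsCupPrimitive φ ψ F) (hF' : IsCupPrimitive φ ψ' F') :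
    IsCupPrimitive φ (ψ + ψ') (F + F') where
  map_mul g h := by
    simp only [Pi.add_apply, AddMonoidHom.add_apply, hF.map_mul, hF'.map_mul]; ring
  map_ell g hg := by simp [hF.map_ell g hg, hF'.map_ell g hg]

theorem IsCupPrimitive.smul_right {φ ψ : Additive Γ →+ R} {F : Γ → R} (r : R)
    (hF : IsCupPrimitive φ ψ F) : IsCupPrimitive φ (r • ψ) (r • F) where
  map_mul g h := by
    simp only [Pi.smul_apply, AddMonoidHom.smul_apply, hF.map_mul, smul_eq_mul]; ring
  map_ell g hg := by simp [hF.map_ell g hg]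

theorem cupSum_add (F G : Γ → R) : cupSum Γ (F + G) = cupSum Γ F + cupSum Γ G :=
  finsum_add_distrib (Set.toFinite _) (Set.toFinite _)

theorem cupSum_smul (r : R) (F : Γ → R) : cupSum Γ (r • F) = r * cupSum Γ F :=
  (mul_finsum' _ r (Set.toFinite _)).symm

variable (R Γ) in
/-- The value of the cup product pairing. -/
noncomputable def cupValue (hΓ : (-1 : SL(2, ℤ)) ∈ Γ) (φ ψ : homPar0 R Γ R) : R :=
  cupSum Γ (exists_isCupPrimitive hΓ φ ψ).choose

theorem cupValue_eq (hΓ : (-1 : SL(2, ℤ)) ∈ Γ) (φ ψ : homPar0 R Γ R) {F : Γ → R}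
    (hF : IsCupPrimitive φ.1 ψ.1 F) : cupValue R Γ hΓ φ ψ = cupSum Γ F :=
  cupSum_congr (exists_isCupPrimitive hΓ φ ψ).choose_spec hF

theorem cupValue_spec (hΓ : (-1 : SL(2, ℤ)) ∈ Γ) (φ ψ : homPar0 R Γ R) :
    ∃ F : Γ → R, IsCupPrimitive φ.1 ψ.1 F ∧ cupValue R Γ hΓ φ ψ = cupSum Γ F :=
  ⟨_, (exists_isCupPrimitive hΓ φ ψ).choose_spec, rfl⟩

variable (R Γ) in
/-- The cup product pairing. -/
noncomputable def cupPairing (hΓ : (-1 : SL(2, ℤ)) ∈ Γ) :
    homPar0 R Γ R →ₗ[R] homPar0 R Γ R →ₗ[R] R :=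
  LinearMap.mk₂ R (cupValue R Γ hΓ)
    (fun φ φ' ψ => by
      obtain ⟨F, hF, e⟩ := cupValue_spec hΓ φ ψ
      obtain ⟨F', hF', e'⟩ := cupValue_spec hΓ φ' ψ
      rw [e, e', cupValue_eq hΓ (φ + φ') ψ (hF.add_left hF'), cupSum_add])
    (fun r φ ψ => by
      obtain ⟨F, hF, e⟩ := cupValue_spec hΓ φ ψ
      rw [e, cupValue_eq hΓ (r • φ) ψ (hF.smul_left r), cupSum_smul, smul_eq_mul])
    (fun φ ψ ψ' => by
      obtain ⟨F, hF, e⟩ := cupValue_spec hΓ φ ψ
      obtain ⟨F', hF', e'⟩ := cupValue_spec hΓ φ ψ'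
      rw [e, e', cupValue_eq hΓ φ (ψ + ψ') (hF.add_right hF'), cupSum_add])
    (fun r φ ψ => by
      obtain ⟨F, hF, e⟩ := cupValue_spec hΓ φ ψ
      rw [e, cupValue_eq hΓ φ (r • ψ) (hF.smul_right r), cupSum_smul, smul_eq_mul])

/-- The pairing is the cusp sum of any cup primitive. -/
theorem cupPairing_eq (hΓ : (-1 : SL(2, ℤ)) ∈ Γ) (φ ψ : homPar0 R Γ R) {F : Γ → R}
    (hF : IsCupPrimitive φ.1 ψ.1 F) : cupPairing R Γ hΓ φ ψ = cupSum Γ F :=
  cupValue_eq hΓ φ ψ hF

theorem cupPairing_swap (hΓ : (-1 : SL(2, ℤ)) ∈ Γ) (φ ψ : homPar0 R Γ R) :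
    cupPairing R Γ hΓ ψ φ = -cupPairing R Γ hΓ φ ψ := by
  obtain ⟨F, hF, e⟩ := cupValue_spec hΓ φ ψ
  obtain ⟨G, hG, e'⟩ := cupValue_spec hΓ ψ φ
  let η : Additive Γ →+ R := AddMonoidHom.mk'
    (fun g => F g.toMul + G g.toMul - φ.1 g * ψ.1 g) fun g h => by
      show F (g.toMul * h.toMul) + G (g.toMul * h.toMul) - φ.1 (g + h) * ψ.1 (g + h) = _
      rw [hF.map_mul, hG.map_mul, map_add, map_add]
      simp only [ofMul_toMul]
      ring
  have h0 := cupSum_hom η fun g hg => by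
    show F g + G g - φ.1 (Additive.ofMul g) * ψ.1 (Additive.ofMul g) = 0
    rw [hF.map_ell g hg, hG.map_ell g hg, φ.2 g ?_]
    · ring
    · unfold IsSmallTrace
      rcases hg with h | h | h
      · exact h.le
      · rw [h]; decide +kernel
      · rw [h]; decide +kernel
  have h1 : cupSum Γ (F + G) = 0 := by
    rw [← h0]
    refine finsum_congr fun o => ?_
    show _ = F (cuspElt Γ (cuspRep Γ o)) + G (cuspElt Γ (cuspRep Γ o)) -
      φ.1 (Additive.ofMul (cuspElt Γ (cuspRep Γ o))) * _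
    rw [φ.2 _ (isSmallTrace_cuspElt _), zero_mul, sub_zero]
    rfl
  rw [cupSum_add] at h1
  show cupValue R Γ hΓ ψ φ = -cupValue R Γ hΓ φ ψ
  rw [e, e']
  exact eq_neg_of_add_eq_zero_right h1

section field

variable {k : Type*} [Field k]

theorem finiteDimensional_cocycles (hΓ : (-1 : SL(2, ℤ)) ∈ Γ) :
    FiniteDimensional k (cocycles k Γ k) := by
  have := Fintype.ofFinite (Dart Γ)
  exact FiniteDimensional.of_injective (dartRestrict k) (dartRestrict_injective hΓ)

theorem finite_index_of_finite_coset : Γ.FiniteIndex := Subgroup.finiteIndex_of_finite_quotient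

/-- Over every field the homomorphisms of normalised cocycles are refined parabolic. -/
theorem range_toHom_eq_homPar0 (hΓ : (-1 : SL(2, ℤ)) ∈ Γ) :
    LinearMap.range (toHom k Γ k) = homPar0 k Γ k := by
  classical
  have := finite_index_of_finite_coset (Γ := Γ)
  have := finiteDimensional_cocycles (k := k) hΓ
  obtain ⟨e⟩ := nonempty_parH1_equiv Γ hΓ
  let ev : (ParH1 Γ →+ k) ≃ₗ[k] (Fin (parRank Γ) → k) :=
    LinearEquiv.ofBijective
      ({ toFun := fun ψ i => ψ (e.symm (Pi.single i 1))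
         map_add' := fun _ _ => rfl
         map_smul' := fun _ _ => rfl } : (ParH1 Γ →+ k) →ₗ[k] (Fin (parRank Γ) → k))
      ⟨fun ψ χ h => by
        have he : ψ.comp e.symm.toAddMonoidHom = χ.comp e.symm.toAddMonoidHom :=
          AddMonoidHom.functions_ext _ _ _ fun i t => by
            rw [← mul_one t, ← smul_eq_mul, Pi.single_smul, map_zsmul, map_zsmul]
            exact congrArg (t • ·) (congrFun h i)
        exact AddMonoidHom.ext fun m => by simpa using DFunLike.congr_fun he (e m),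
      fun v => ⟨(∑ i, (zmultiplesHom k (v i)).comp (Pi.evalAddMonoidHom (fun _ => ℤ) i)).comp
        e.toAddMonoidHom, funext fun i => by simp [Pi.single_apply, ite_smul]⟩⟩
  refine (Submodule.eq_of_le_of_finrank_eq (homPar0_le_range_toHom k Γ k hΓ) ?_).symm
  rw [← (parHomEquiv Γ k k).finrank_eq, ev.finrank_eq, Module.finrank_fintype_fun_eq_card,
    Fintype.card_fin]
  exact_mod_cast ((finrank_range_toHom k hΓ).trans (parRank_eq Γ hΓ).symm).symm

theorem T_eq_neg_one_mul : (ModularGroup.T : SL(2, ℤ)) = -1 * (ModularGroup.S * matU) := by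
  decide +kernel

theorem T_smul_coset (hΓ : (-1 : SL(2, ℤ)) ∈ Γ) (z : Coset Γ) :
    (ModularGroup.T : SL(2, ℤ)) • z = (ModularGroup.S : SL(2, ℤ)) • matU • z := by
  rw [T_eq_neg_one_mul, mul_smul, neg_one_smul_coset hΓ, mul_smul]

/-- Every functional is given by pairing with some element. -/
theorem exists_cupPairing_eq (hΓ : (-1 : SL(2, ℤ)) ∈ Γ) (f : homPar0 k Γ k →ₗ[k] k) :
    ∃ ψ : homPar0 k Γ k, ∀ φ, cupPairing k Γ hΓ φ ψ = f φ := by
  classical
  have := Fintype.ofFinite (Coset Γ)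
  have := Fintype.ofFinite (Dart Γ)
  have := Fintype.ofFinite (PermOrbit (cosetPerm Γ matU))
  have hrange := range_toHom_eq_homPar0 (k := k) hΓ
  let π : cocycles k Γ k →ₗ[k] homPar0 k Γ k :=
    (toHom k Γ k).codRestrict _ fun c => hrange.le ⟨c, rfl⟩
  obtain ⟨g, hg⟩ := (dartRestrict (Γ := Γ) k).exists_leftInverse_of_injective
    (LinearMap.ker_eq_bot.mpr (dartRestrict_injective hΓ))
  let q : Dart Γ → k := fun d => f (π (g (Pi.single d 1)))
  have hq : ∀ c, f (π c) = ∑ d, c.1 ModularGroup.S d.1 * q d := by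
    intro c
    have h1 : c = g (∑ d, c.1 ModularGroup.S d.1 • Pi.single d (1 : k)) := by
      conv_lhs => rw [show c = g (dartRestrict k c) from (LinearMap.congr_fun hg c).symm]
      exact congrArg g (funext fun d => by
        simp [dartRestrict, Finset.sum_apply, Pi.single_apply])
    conv_lhs => rw [h1]
    simp [q, map_sum, smul_eq_mul]
  let r : Coset Γ → k := dartExt Γ fun d => -q d
  have hrd : ∀ d : Dart Γ, r d.1 = -q d := fun d => dartExt_dart _ d
  have hrS : ∀ d : Dart Γ, r ((ModularGroup.S : SL(2, ℤ)) • d.1) = q d := fun d => by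
    rw [show r _ = -(-q d) from dartExt_S_dart hΓ _ d, neg_neg]
  obtain ⟨P, hP⟩ := (exists_potential_iff_orbit_sum (cosetPerm Γ matU) r).2 fun o => by
    have h0 : f (π (coboundary k Γ k (Pi.single o 1))) = 0 := by
      have : π (coboundary k Γ k (Pi.single o 1)) = 0 :=
        Subtype.ext (LinearMap.mem_ker.mp ((ker_toHom k Γ k).ge ⟨_, rfl⟩))
      rw [this, map_zero]
    rw [hq] at h0
    simp only [coboundary_apply] at h0
    rw [Finset.sum_filter, sum_coset hΓ, Finset.sum_eq_zero (s := Finset.univ.filter _)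
      (fun x hx => by rw [show r x = 0 from dartExt_fixed _ (Finset.mem_filter.mp hx).2, ite_self]),
      add_zero]
    refine (Finset.sum_congr rfl fun d _ => ?_).trans h0
    simp only [hrd, hrS, Pi.single_apply]
    split_ifs <;> ring
  let p : Coset Γ → k := fun y => P (matU • y)
  have hp : ∀ y, p y - p (matU⁻¹ • y) = r y := fun y => by
    simpa [p] using hP y
  let a : Coset Γ → k := fun x => p ((ModularGroup.S : SL(2, ℤ)) • x) - p (matU⁻¹ • x)
  have hr : ∀ x, r ((ModularGroup.S : SL(2, ℤ)) • x) + r x = 0 := dartExt_antisymm hΓ _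
  obtain ⟨c, hc, hcS, hcU⟩ := exists_isCocycle hΓ a fun x => by
    simp only [a, S_smul_S_smul hΓ]
    linear_combination hp x + hp ((ModularGroup.S : SL(2, ℤ)) • x) + hr x
  have hcT : ∀ z, c ModularGroup.T z = c ModularGroup.S (matU • z) := fun z => by
    have hneg : ∀ x, c (-1) x = 0 := fun x => by
      rw [← matU_cube, hc.map_pow]
      exact Finset.sum_eq_zero fun i _ => congrFun hcU _
    rw [T_eq_neg_one_mul, hc, hneg, zero_add, hc, hcU, Pi.zero_apply, add_zero]
  let c' : cocycles k Γ k := ⟨c, hc, hcU, fun x hx => by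
      rw [hcS]
      show p _ - p _ = 0
      rw [hx, hp]
      exact dartExt_fixed _ hx,
    p, fun z => by
      rw [hcT, hcS]
      show _ = p _ - p _
      rw [inv_smul_smul, T_smul_coset hΓ]⟩
  refine ⟨π c', fun φ => ?_⟩
  obtain ⟨cφ, hcφ⟩ := hrange.ge φ.2
  obtain rfl : π cφ = φ := Subtype.ext hcφ
  obtain ⟨F, hF, hFsum⟩ := exists_isCupPrimitive_cocycles hΓ cφ c' p (
    fun z => by
      show p _ - p _ = c ModularGroup.T z
      rw [hcT, hcS]
      show _ = p _ - p _
      rw [inv_smul_smul, T_smul_coset hΓ])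
  rw [cupPairing_eq hΓ (π cφ) (π c') hF, hFsum, hq, finsum_eq_sum_of_fintype,
    finsum_eq_sum_of_fintype,
    ← Equiv.sum_comp (cosetPerm Γ matU⁻¹) (fun x => cφ.1 ModularGroup.S (matU • x) * p x)]
  simp only [MulAction.toPerm_apply, smul_inv_smul]
  rw [sum_coset hΓ, Finset.sum_eq_zero (s := Finset.univ.filter _)
    (fun x hx => by rw [cφ.2.2.2.1 x (Finset.mem_filter.mp hx).2, zero_mul]),
    add_zero, ← Finset.sum_add_distrib]
  refine Finset.sum_congr rfl fun d _ => ?_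
  rw [cocycles_S_smul hΓ, show c'.1 ModularGroup.S d.1 = a d.1 from congrFun hcS _, ← hrS d, ← hp]
  simp only [a]
  ring

/-- Over a field the pairing is perfect. -/
theorem cupPairing_bijective (hΓ : (-1 : SL(2, ℤ)) ∈ Γ) :
    Function.Bijective (cupPairing k Γ hΓ) := by
  have := finiteDimensional_cocycles (k := k) hΓ
  have : FiniteDimensional k (homPar0 k Γ k) :=
    Submodule.finiteDimensional_of_le (homPar0_le_range_toHom k Γ k hΓ)
  have hsurj : Function.Surjective (cupPairing k Γ hΓ) := fun f => by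
    obtain ⟨ψ, hψ⟩ := exists_cupPairing_eq hΓ f
    refine ⟨-ψ, LinearMap.ext fun φ => ?_⟩
    rw [map_neg, LinearMap.neg_apply, cupPairing_swap hΓ φ ψ, neg_neg, hψ]
  exact ⟨(LinearMap.injective_iff_surjective_of_finrank_eq_finrank
    Subspace.dual_finrank_eq.symm).mpr hsurj, hsurj⟩

/-- Over a field the pairing is nondegenerate. -/
theorem cupPairing_eq_zero_left (hΓ : (-1 : SL(2, ℤ)) ∈ Γ)
    (φ : homPar0 k Γ k) (h : ∀ ψ, cupPairing k Γ hΓ φ ψ = 0) : φ = 0 :=
  (cupPairing_bijective hΓ).1 ((LinearMap.ext h).trans (map_zero _).symm)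

end field

end FLTA.Gamma0
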