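import Fermat.Agent.Gamma0.Complex.Cocycle
import Mathlib.Dynamics.PeriodicPts.Lemmas
import Mathlib.Algebra.BigOperators.Finprod

/-!
# Cup primitives and their sums over the cusps

For `φ ψ : Γ → R`, a cup primitive is a function `F` with `F (g h) = F g + F h + φ g ψ h` killing
the centre and the elliptic elements. The sum of `F` over the positive generators of the cusp
stabilisers is independent of `F`.
-/

set_option autoImplicit false

open scoped MatrixGroups

namespace FLTA.Gamma0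

open Presentation Orbits

variable {R : Type*} [CommRing R]

/-- The element is elliptic or central. -/
def IsEllOrCentral (g : SL(2, ℤ)) : Prop :=
  (g : Matrix (Fin 2) (Fin 2) ℤ).trace ^ 2 < 4 ∨ g = 1 ∨ g = -1

/-- A function whose coboundary is the cup product of `φ` and `ψ`. -/
structure IsCupPrimitive {Γ : Subgroup SL(2, ℤ)} (φ ψ : Additive Γ →+ R) (F : Γ → R) : Prop where
  map_mul : ∀ g h : Γ, F (g * h) = F g + F h + φ (Additive.ofMul g) * ψ (Additive.ofMul h)
  map_ell : ∀ g : Γ, IsEllOrCentral (g : SL(2, ℤ)) → F g = 0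

variable (Γ : Subgroup SL(2, ℤ))

/-- The width of the cusp of a coset. -/
noncomputable def cuspWidth (x : Coset Γ) : ℕ :=
  Function.minimalPeriod (fun y : Coset Γ => (ModularGroup.T : SL(2, ℤ)) • y) x

theorem cuspElt_mem (x : Coset Γ) :
    x.out⁻¹ * ModularGroup.T ^ cuspWidth Γ x * x.out ∈ Γ := by
  have h : (ModularGroup.T : SL(2, ℤ)) ^ cuspWidth Γ x • x = x := by
    have := Function.iterate_minimalPeriod
      (f := fun y : Coset Γ => (ModularGroup.T : SL(2, ℤ)) • y) (x := x)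
    rwa [smul_iterate_apply] at this
  rw [mul_assoc, ← QuotientGroup.eq, ← smul_baseCoset Γ (_ * x.out), mul_smul,
    smul_baseCoset Γ x.out, QuotientGroup.out_eq', h]

/-- The positive generator of the stabiliser of the cusp of a coset. -/
noncomputable def cuspElt (x : Coset Γ) : Γ := ⟨_, cuspElt_mem Γ x⟩

/-- A representative of a cusp. -/
noncomputable def cuspRep (o : PermOrbit (cosetPerm Γ ModularGroup.T)) : Coset Γ :=
  Function.surjInv (orbCls_surjective _) o

/-- The sum of a function over the positive generators of all cusp stabilisers. -/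
noncomputable def cupSum (F : Γ → R) : R :=
  ∑ᶠ o : PermOrbit (cosetPerm Γ ModularGroup.T), F (cuspElt Γ (cuspRep Γ o))

variable {Γ}

theorem trace_conj_T_pow (g : SL(2, ℤ)) (m : ℕ) :
    IsSmallTrace (g⁻¹ * ModularGroup.T ^ m * g) := by
  unfold IsSmallTrace
  have h : g⁻¹ * ModularGroup.T ^ m * g = g⁻¹ * ModularGroup.T ^ m * g⁻¹⁻¹ := by rw [inv_inv]
  rw [h, ConjClass.trace_conj, ← zpow_natCast, ModularGroup.coe_T_zpow]
  norm_num [Matrix.trace_fin_two]

theorem isSmallTrace_cuspElt (x : Coset Γ) : IsSmallTrace (cuspElt Γ x : SL(2, ℤ)) :=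
  trace_conj_T_pow _ _

theorem IsCupPrimitive.map_one {φ ψ : Additive Γ →+ R} {F : Γ → R}
    (hF : IsCupPrimitive φ ψ F) : F 1 = 0 :=
  hF.map_ell 1 (Or.inr (Or.inl rfl))

theorem IsCupPrimitive.map_conj {φ ψ : Additive Γ →+ R} {F : Γ → R} (hF : IsCupPrimitive φ ψ F)
    (γ u : Γ) (hφu : φ (Additive.ofMul u) = 0) (hψu : ψ (Additive.ofMul u) = 0) :
    F (γ⁻¹ * u * γ) = F u := by
  have h1 := hF.map_mul (γ⁻¹ * u) γ
  have h2 := hF.map_mul γ⁻¹ u
  have h3 := hF.map_mul γ⁻¹ γ
  rw [inv_mul_cancel, hF.map_one] at h3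
  rw [h1, h2, ofMul_mul, map_add, hφu, hψu]
  linear_combination -h3

theorem minimalPeriod_iterate_eq {X : Type*} [Finite X] (π : Equiv.Perm X) (x : X) (i : ℕ) :
    Function.minimalPeriod π ((π ^ i) x) = Function.minimalPeriod π x := by
  rw [Equiv.Perm.coe_pow]
  exact Function.minimalPeriod_apply_iterate (π.injective.mem_periodicPts x) i

/-- The sum of `F` at a cusp does not depend on the representative. -/
theorem IsCupPrimitive.eq_of_orbCls_eq [Finite (Coset Γ)] (_hΓ : (-1 : SL(2, ℤ)) ∈ Γ)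
    {φ ψ : Additive Γ →+ R} (hφ : IsParHom0 Γ φ) (hψ : IsParHom0 Γ ψ) {F : Γ → R}
    (hF : IsCupPrimitive φ ψ F) {x y : Coset Γ}
    (h : orbCls (cosetPerm Γ ModularGroup.T) x = orbCls (cosetPerm Γ ModularGroup.T) y) :
    F (cuspElt Γ x) = F (cuspElt Γ y) := by
  obtain ⟨i, rfl⟩ := ((orbCls_eq_iff _ _ _).1 h).exists_nat_pow_eq
  have hi : (cosetPerm Γ ModularGroup.T ^ i) x = (ModularGroup.T : SL(2, ℤ)) ^ i • x :=
    (DFunLike.congr_fun
      (map_pow (MulAction.toPermHom SL(2, ℤ) (Coset Γ)) ModularGroup.T i) x).symm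
  have hw : cuspWidth Γ ((cosetPerm Γ ModularGroup.T ^ i) x) = cuspWidth Γ x :=
    minimalPeriod_iterate_eq (cosetPerm Γ ModularGroup.T) x i
  rw [hi] at hw ⊢
  set y := (ModularGroup.T : SL(2, ℤ)) ^ i • x
  have hmem : x.out⁻¹ * (ModularGroup.T ^ i)⁻¹ * y.out ∈ Γ := by
    rw [mul_assoc, ← QuotientGroup.eq, ← smul_baseCoset Γ (_ * y.out), mul_smul,
      smul_baseCoset Γ y.out, QuotientGroup.out_eq', QuotientGroup.out_eq', inv_smul_smul]
  have e : cuspElt Γ y = (⟨_, hmem⟩ : Γ)⁻¹ * cuspElt Γ x * ⟨_, hmem⟩ := by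
    refine Subtype.ext ?_
    show y.out⁻¹ * ModularGroup.T ^ cuspWidth Γ y * y.out =
      (x.out⁻¹ * (ModularGroup.T ^ i)⁻¹ * y.out)⁻¹ *
        (x.out⁻¹ * ModularGroup.T ^ cuspWidth Γ x * x.out) *
        (x.out⁻¹ * (ModularGroup.T ^ i)⁻¹ * y.out)
    rw [hw]
    group
  rw [e, hF.map_conj _ _ (hφ _ (isSmallTrace_cuspElt x)) (hψ _ (isSmallTrace_cuspElt x))]

theorem isEllOrCentral_pow_S : ∀ m : ℕ, IsEllOrCentral (ModularGroup.S ^ m) := by
  intro m
  rw [← Nat.div_add_mod m 4, pow_add, pow_mul,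
    show (ModularGroup.S : SL(2, ℤ)) ^ 4 = 1 by decide +kernel, one_pow, one_mul]
  have h : m % 4 < 4 := Nat.mod_lt _ (by norm_num)
  revert h
  generalize m % 4 = j
  intro h
  unfold IsEllOrCentral
  interval_cases j <;> decide +kernel

theorem isEllOrCentral_pow_matU : ∀ m : ℕ, IsEllOrCentral (matU ^ m) := by
  intro m
  rw [← Nat.div_add_mod m 6, pow_add, pow_mul, show matU ^ 6 = 1 by decide +kernel, one_pow,
    one_mul]
  have h : m % 6 < 6 := Nat.mod_lt _ (by norm_num)
  revert h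
  generalize m % 6 = j
  intro h
  unfold IsEllOrCentral
  interval_cases j <;> decide +kernel

theorem isEllOrCentral_conj {g : SL(2, ℤ)} (hg : IsEllOrCentral g) (h : SL(2, ℤ)) :
    IsEllOrCentral (h⁻¹ * g * h) := by
  rcases hg with hg | rfl | rfl
  · left
    have e : h⁻¹ * g * h = h⁻¹ * g * h⁻¹⁻¹ := by rw [inv_inv]
    rwa [e, ConjClass.trace_conj]
  · exact Or.inr (Or.inl (by rw [mul_one, inv_mul_cancel]))
  · exact Or.inr (Or.inr (by simp))

/-- A homomorphism killing the elliptic and central elements sums to zero over the cusps. -/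
theorem cupSum_hom [Finite (Coset Γ)] (η : Additive Γ →+ R)
    (hη : ∀ g : Γ, IsEllOrCentral (g : SL(2, ℤ)) → η (Additive.ofMul g) = 0) :
    cupSum Γ (fun g => η (Additive.ofMul g)) = 0 := by
  classical
  have := Fintype.ofFinite (Coset Γ)
  have := Fintype.ofFinite (PermOrbit (cosetPerm Γ ModularGroup.T))
  have mem : ∀ (g : SL(2, ℤ)) (x : Coset Γ), (g • x).out⁻¹ * g * x.out ∈ Γ := by
    intro g x
    rw [mul_assoc, ← QuotientGroup.eq, QuotientGroup.out_eq', ← smul_baseCoset Γ (g * x.out),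
      mul_smul, smul_baseCoset Γ x.out, QuotientGroup.out_eq']
  let c : SL(2, ℤ) → Coset Γ → R := fun g x => η (Additive.ofMul ⟨_, mem g x⟩)
  have hc : IsCocycle c := by
    intro g h x
    show η _ = η _ + η _
    rw [← map_add]
    refine congrArg η (congrArg Additive.ofMul (Subtype.ext ?_))
    show ((g * h) • x).out⁻¹ * (g * h) * x.out
      = (g • h • x).out⁻¹ * g * (h • x).out * ((h • x).out⁻¹ * h * x.out)
    rw [mul_smul]
    group
  have hpow : ∀ (g : SL(2, ℤ)) (i : ℕ) (y : Coset Γ), (cosetPerm Γ g ^ i) y = g ^ i • y :=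
    fun g i y => (DFunLike.congr_fun
      (map_pow (MulAction.toPermHom SL(2, ℤ) (Coset Γ)) g i) y).symm
  have hsum : ∀ g : SL(2, ℤ), (∀ m : ℕ, IsEllOrCentral (g ^ m)) → ∑ x, c g x = 0 := by
    intro g hg
    obtain ⟨p, hp⟩ := (exists_potential_iff_periods (cosetPerm Γ g) (c g)).2 fun x m hx => by
      rw [hpow] at hx
      simp only [hpow, ← hc.map_pow]
      refine hη _ ?_
      show IsEllOrCentral ((g ^ m • x).out⁻¹ * g ^ m * x.out)
      rw [hx]
      exact isEllOrCentral_conj (hg m) _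
    simp only [← hp, Finset.sum_sub_distrib, Equiv.sum_comp (cosetPerm Γ g) p, sub_self]
  have hT : ∑ x, c ModularGroup.T x = 0 := by
    have e : (ModularGroup.T : SL(2, ℤ)) = ModularGroup.S ^ 3 * matU := by decide +kernel
    have h3 : ∀ m : ℕ, IsEllOrCentral (((ModularGroup.S : SL(2, ℤ)) ^ 3) ^ m) := fun m => by
      rw [← pow_mul]; exact isEllOrCentral_pow_S _
    simp only [e, hc _ matU, Finset.sum_add_distrib]
    rw [hsum matU isEllOrCentral_pow_matU,
      ← Equiv.sum_comp (cosetPerm Γ matU⁻¹) (fun x => c (ModularGroup.S ^ 3) (matU • x))]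
    simp only [MulAction.toPerm_apply, smul_inv_smul, hsum _ h3, add_zero]
  rw [← hT, cupSum, finsum_eq_sum_of_fintype,
    ← Finset.sum_fiberwise (g := orbCls (cosetPerm Γ ModularGroup.T)) (f := c ModularGroup.T)]
  refine Finset.sum_congr rfl fun o _ => ?_
  obtain ⟨z, rfl⟩ : ∃ z, z = cuspRep Γ o := ⟨_, rfl⟩
  set z := cuspRep Γ o with hz
  have hoz : orbCls (cosetPerm Γ ModularGroup.T) z = o :=
    Function.surjInv_eq (orbCls_surjective _) o
  rw [← hoz]
  refine Eq.trans ?_ (Finset.sum_congr (s₁ := (Finset.range (Function.minimalPeriod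
      (cosetPerm Γ ModularGroup.T) z)).image fun i => (cosetPerm Γ ModularGroup.T ^ i) z)
    (by convert (filter_orbCls_eq _ z).symm) fun _ _ => rfl)
  rw [Finset.sum_image (injOn_pow_minimalPeriod _ z)]
  simp only [hpow]
  refine Eq.trans ?_
    (hc.map_pow ModularGroup.T (Function.minimalPeriod (cosetPerm Γ ModularGroup.T) z) z)
  refine congrArg η (congrArg Additive.ofMul (Subtype.ext ?_))
  have hw : (ModularGroup.T : SL(2, ℤ)) ^
      Function.minimalPeriod (cosetPerm Γ ModularGroup.T) z • z = z := by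
    rw [← hpow, Equiv.Perm.coe_pow]
    exact Function.iterate_minimalPeriod
  show z.out⁻¹ * ModularGroup.T ^ cuspWidth Γ z * z.out = (_ • z).out⁻¹ * _ * z.out
  rw [hw]
  rfl

/-- Two cup primitives have the same sum over the cusps. -/
theorem cupSum_congr [Finite (Coset Γ)] {φ ψ : Additive Γ →+ R} {F G : Γ → R}
    (hF : IsCupPrimitive φ ψ F) (hG : IsCupPrimitive φ ψ G) : cupSum Γ F = cupSum Γ G := by
  have : Finite (PermOrbit (cosetPerm Γ ModularGroup.T)) := inferInstance
  let η : Additive Γ →+ R := AddMonoidHom.mk' (fun g => F g.toMul - G g.toMul) fun g h => by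
    show F (g.toMul * h.toMul) - G (g.toMul * h.toMul) = _
    rw [hF.map_mul, hG.map_mul]
    ring
  have h0 := cupSum_hom η fun g hg => by
    show F g - G g = 0
    rw [hF.map_ell g hg, hG.map_ell g hg, sub_self]
  rw [cupSum] at h0
  have h1 : (∑ᶠ o, F (cuspElt Γ (cuspRep Γ o))) - ∑ᶠ o, G (cuspElt Γ (cuspRep Γ o)) = 0 := by
    rw [← finsum_sub_distrib (Set.toFinite _) (Set.toFinite _)]
    exact h0
  exact sub_eq_zero.mp h1

end FLTA.Gamma0
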