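import Fermat.Agent.Gamma0.Complex.Cocycle
import Mathlib.LinearAlgebra.Matrix.Rank
import Mathlib.LinearAlgebra.Dimension.Free
import Mathlib.LinearAlgebra.FiniteDimensional.Basic

/-!
# The dimension of the space of homomorphisms given by normalised cocycles

Over a field, `range (toHom)` has dimension `#darts - #(ST-orbits) - #(T-orbits) + 2`.
-/

set_option autoImplicit false

open scoped MatrixGroups
open ModularGroup Finset Module

namespace FLTA.Gamma0

open Presentation Orbits

variable (Γ : Subgroup SL(2, ℤ)) [Finite (Coset Γ)]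

/-- An auxiliary numbering of the cosets. -/
noncomputable def cosetIndex (x : Coset Γ) : Fin (Nat.card (Coset Γ)) :=
  Finite.equivFin (Coset Γ) x

theorem cosetIndex_injective : Function.Injective (cosetIndex Γ) :=
  (Finite.equivFin (Coset Γ)).injective

/-- One coset out of each free orbit of `S`. -/
def Dart : Type :=
  {x : Coset Γ // cosetIndex Γ x < cosetIndex Γ ((ModularGroup.S : SL(2, ℤ)) • x)}

instance : Finite (Dart Γ) := Subtype.finite

/-- The alternating extension of a function on darts to all cosets. -/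
noncomputable def dartExt {A : Type*} [AddCommGroup A] (a : Dart Γ → A) (x : Coset Γ) : A :=
  open scoped Classical in
  if h : cosetIndex Γ x < cosetIndex Γ ((ModularGroup.S : SL(2, ℤ)) • x) then a ⟨x, h⟩
  else if h' : cosetIndex Γ ((ModularGroup.S : SL(2, ℤ)) • x) <
      cosetIndex Γ ((ModularGroup.S : SL(2, ℤ)) • (ModularGroup.S : SL(2, ℤ)) • x) then
    -a ⟨(ModularGroup.S : SL(2, ℤ)) • x, h'⟩
  else 0

variable {Γ}

theorem S_smul_S_smul (hΓ : (-1 : SL(2, ℤ)) ∈ Γ) (x : Coset Γ) :
    (ModularGroup.S : SL(2, ℤ)) • (ModularGroup.S : SL(2, ℤ)) • x = x := by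
  rw [← mul_smul, ← pow_two, S_sq, neg_one_smul_coset hΓ]

theorem dart_trichotomy (hΓ : (-1 : SL(2, ℤ)) ∈ Γ) (x : Coset Γ) :
    (∃ d : Dart Γ, x = d.1) ∨ (∃ d : Dart Γ, x = (ModularGroup.S : SL(2, ℤ)) • d.1) ∨
      (ModularGroup.S : SL(2, ℤ)) • x = x := by
  rcases lt_trichotomy (cosetIndex Γ x) (cosetIndex Γ ((ModularGroup.S : SL(2, ℤ)) • x))
    with h | h | h
  · exact Or.inl ⟨⟨x, h⟩, rfl⟩
  · exact Or.inr (Or.inr (cosetIndex_injective Γ h).symm)
  · exact Or.inr (Or.inl ⟨⟨(ModularGroup.S : SL(2, ℤ)) • x, by rwa [S_smul_S_smul hΓ]⟩,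
      (S_smul_S_smul hΓ x).symm⟩)

section ext

variable {A : Type*} [AddCommGroup A]

theorem dartExt_dart (a : Dart Γ → A) (d : Dart Γ) : dartExt Γ a d.1 = a d :=
  dif_pos d.2

theorem dartExt_S_dart (hΓ : (-1 : SL(2, ℤ)) ∈ Γ) (a : Dart Γ → A) (d : Dart Γ) :
    dartExt Γ a ((ModularGroup.S : SL(2, ℤ)) • d.1) = -a d := by
  have hd := d.2
  unfold dartExt
  rw [dif_neg (by rw [S_smul_S_smul hΓ]; exact not_lt.mpr hd.le),
    dif_pos (by rwa [S_smul_S_smul hΓ])]
  exact congrArg (fun d => -a d) (Subtype.ext (S_smul_S_smul hΓ d.1))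

theorem dartExt_fixed (a : Dart Γ → A) {x : Coset Γ}
    (hx : (ModularGroup.S : SL(2, ℤ)) • x = x) : dartExt Γ a x = 0 := by
  unfold dartExt
  rw [dif_neg (by rw [hx]; exact lt_irrefl _), dif_neg (by rw [hx, hx]; exact lt_irrefl _)]

theorem dartExt_antisymm (hΓ : (-1 : SL(2, ℤ)) ∈ Γ) (a : Dart Γ → A) (x : Coset Γ) :
    dartExt Γ a ((ModularGroup.S : SL(2, ℤ)) • x) + dartExt Γ a x = 0 := by
  rcases dart_trichotomy hΓ x with ⟨d, rfl⟩ | ⟨d, rfl⟩ | hx
  · rw [dartExt_S_dart hΓ, dartExt_dart, neg_add_cancel]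
  · rw [S_smul_S_smul hΓ, dartExt_S_dart hΓ, dartExt_dart, add_neg_cancel]
  · rw [hx, dartExt_fixed a hx, add_zero]

open scoped Classical in
theorem sum_coset [Fintype (Coset Γ)] [Fintype (Dart Γ)] (hΓ : (-1 : SL(2, ℤ)) ∈ Γ)
    (G : Coset Γ → A) :
    ∑ x, G x = ∑ d : Dart Γ, (G d.1 + G ((ModularGroup.S : SL(2, ℤ)) • d.1)) +
      ∑ x ∈ univ.filter (fun x : Coset Γ => (ModularGroup.S : SL(2, ℤ)) • x = x), G x := by
  rw [sum_add_distrib]
  let i₁ : Dart Γ ↪ Coset Γ := Function.Embedding.subtype _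
  let i₂ : Dart Γ ↪ Coset Γ := i₁.trans (MulAction.toPerm (ModularGroup.S : SL(2, ℤ))).toEmbedding
  have h1 : ∑ d : Dart Γ, G d.1 = ∑ x ∈ univ.map i₁, G x := by rw [sum_map]; rfl
  have h2 : ∑ d : Dart Γ, G ((ModularGroup.S : SL(2, ℤ)) • d.1) = ∑ x ∈ univ.map i₂, G x := by
    rw [sum_map]; rfl
  have hd1 : Disjoint (univ.map i₁) (univ.map i₂) := by
    simp only [disjoint_left, mem_map, mem_univ, true_and, not_exists, forall_exists_index]
    rintro x d rfl e (he : (ModularGroup.S : SL(2, ℤ)) • e.1 = d.1)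
    have h := d.2
    rw [← he, S_smul_S_smul hΓ] at h
    exact lt_asymm h e.2
  have hd2 : Disjoint (univ.map i₁ ∪ univ.map i₂)
      (univ.filter fun x : Coset Γ => (ModularGroup.S : SL(2, ℤ)) • x = x) := by
    simp only [disjoint_left, mem_union, mem_map, mem_univ, true_and, mem_filter]
    rintro x (⟨d, rfl⟩ | ⟨d, rfl⟩) (h : (ModularGroup.S : SL(2, ℤ)) • _ = _)
    · have h' : (ModularGroup.S : SL(2, ℤ)) • d.1 = d.1 := h
      exact d.2.ne (by rw [h'])
    · have h' : (ModularGroup.S : SL(2, ℤ)) • (ModularGroup.S : SL(2, ℤ)) • d.1 =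
          (ModularGroup.S : SL(2, ℤ)) • d.1 := h
      rw [S_smul_S_smul hΓ] at h'
      exact d.2.ne (by rw [← h'])
  rw [h1, h2, ← sum_union hd1, ← sum_union hd2]
  refine sum_congr (Finset.ext fun x => ?_) fun _ _ => rfl
  simp only [mem_union, mem_map, mem_univ, true_and, mem_filter, true_iff]
  rcases dart_trichotomy hΓ x with ⟨d, rfl⟩ | ⟨d, rfl⟩ | hx
  · exact Or.inl (Or.inl ⟨d, rfl⟩)
  · exact Or.inl (Or.inr ⟨d, rfl⟩)
  · exact Or.inr hx

end ext

theorem two_mul_card_dart_add (hΓ : (-1 : SL(2, ℤ)) ∈ Γ) :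
    2 * Nat.card (Dart Γ) +
        Nat.card {x : Coset Γ // (ModularGroup.S : SL(2, ℤ)) • x = x} = Nat.card (Coset Γ) := by
  classical
  have := Fintype.ofFinite (Coset Γ)
  have := Fintype.ofFinite (Dart Γ)
  have h := sum_coset (A := ℤ) hΓ fun _ => 1
  simp only [sum_add_distrib, sum_const, card_univ, nsmul_eq_mul, mul_one] at h
  rw [Nat.card_eq_fintype_card, Nat.card_eq_fintype_card, Nat.card_eq_fintype_card,
    Fintype.card_subtype]
  omega

/-- A function invariant under a generating set of `SL(2, ℤ)` is constant. -/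
theorem coset_function_const {B : Type*} (q : Coset Γ → B) (s : Set SL(2, ℤ))
    (hs : Subgroup.closure s = ⊤) (hq : ∀ g ∈ s, ∀ x, q (g • x) = q x) (x : Coset Γ) :
    q x = q (baseCoset Γ) := by
  let H : Subgroup SL(2, ℤ) :=
    { carrier := {g | ∀ x, q (g • x) = q x}
      one_mem' := fun x => by rw [one_smul]
      mul_mem' := fun {g h} hg hh x => by rw [mul_smul, hg, hh]
      inv_mem' := fun {g} hg x => by rw [← hg (g⁻¹ • x), smul_inv_smul] }
  have hle : Subgroup.closure s ≤ H := (Subgroup.closure_le H).mpr hq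
  rw [hs] at hle
  induction x using QuotientGroup.induction_on with
  | _ g => rw [← smul_baseCoset]; exact hle (Subgroup.mem_top g) (baseCoset Γ)

section field

variable (k : Type*) [Field k]

/-- Restriction of a cocycle to the darts. -/
def dartRestrict : cocycles k Γ k →ₗ[k] (Dart Γ → k) where
  toFun c d := c.1 ModularGroup.S d.1
  map_add' _ _ := rfl
  map_smul' _ _ := rfl

variable {k}

theorem cocycle_S_eq_dartExt (hΓ : (-1 : SL(2, ℤ)) ∈ Γ) (c : cocycles k Γ k) :
    c.1 ModularGroup.S = dartExt Γ (dartRestrict k c) := by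
  funext x
  rcases dart_trichotomy hΓ x with ⟨d, rfl⟩ | ⟨d, rfl⟩ | hx
  · rw [dartExt_dart]; rfl
  · rw [dartExt_S_dart hΓ, cocycles_S_smul hΓ]; rfl
  · rw [dartExt_fixed _ hx, c.2.2.2.1 x hx]

theorem dartRestrict_injective (hΓ : (-1 : SL(2, ℤ)) ∈ Γ) :
    Function.Injective (dartRestrict (Γ := Γ) k) := by
  intro c c' h
  refine Subtype.ext (c.2.1.ext_S_U c'.2.1 ?_ ?_)
  · rw [cocycle_S_eq_dartExt hΓ, cocycle_S_eq_dartExt hΓ, h]
  · rw [c.2.2.1, c'.2.2.1]

variable (k Γ)

open scoped Classical in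
/-- The boundary matrix from the faces (cusps) to the darts. -/
noncomputable def faceMatrix :
    Matrix (Dart Γ) (PermOrbit (cosetPerm Γ ModularGroup.T)) k :=
  fun d o => (if orbCls (cosetPerm Γ ModularGroup.T) (matU⁻¹ • d.1) = o then 1 else 0) -
    if orbCls (cosetPerm Γ ModularGroup.T)
        (matU⁻¹ • (ModularGroup.S : SL(2, ℤ)) • d.1) = o then 1 else 0

variable {k Γ}

open scoped Classical in
theorem faceMatrix_mulVec [Fintype (PermOrbit (cosetPerm Γ ModularGroup.T))]
    (y : PermOrbit (cosetPerm Γ ModularGroup.T) → k) (d : Dart Γ) :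
    (faceMatrix Γ k).mulVec y d = y (orbCls _ (matU⁻¹ • d.1)) -
      y (orbCls _ (matU⁻¹ • (ModularGroup.S : SL(2, ℤ)) • d.1)) := by
  simp [Matrix.mulVec, dotProduct, faceMatrix, sub_mul, ite_mul, sum_sub_distrib]

open scoped Classical in
theorem faceMatrix_transpose_mulVec [Fintype (Dart Γ)] [Fintype (Coset Γ)]
    (hΓ : (-1 : SL(2, ℤ)) ∈ Γ) (a : Dart Γ → k) (o : PermOrbit (cosetPerm Γ ModularGroup.T)) :
    (faceMatrix Γ k).transpose.mulVec a o =
      ∑ z ∈ univ.filter (fun z => orbCls (cosetPerm Γ ModularGroup.T) z = o),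
        dartExt Γ a (matU • z) := by
  have h1 : (∑ z ∈ univ.filter (fun z => orbCls (cosetPerm Γ ModularGroup.T) z = o),
      dartExt Γ a (matU • z)) =
      ∑ x : Coset Γ, if orbCls (cosetPerm Γ ModularGroup.T) (matU⁻¹ • x) = o
        then dartExt Γ a x else 0 := by
    rw [sum_filter, ← Equiv.sum_comp (MulAction.toPerm (matU : SL(2, ℤ)))
      (fun x => if orbCls (cosetPerm Γ ModularGroup.T) (matU⁻¹ • x) = o then dartExt Γ a x else 0)]
    simp [MulAction.toPerm_apply]
  have hfix : (∑ x ∈ univ.filter (fun x : Coset Γ => (ModularGroup.S : SL(2, ℤ)) • x = x),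
      if orbCls (cosetPerm Γ ModularGroup.T) (matU⁻¹ • x) = o then dartExt Γ a x else 0) = 0 :=
    sum_eq_zero fun x hx => by rw [dartExt_fixed a (mem_filter.mp hx).2]; simp
  rw [h1, sum_coset hΓ, hfix, add_zero]
  simp only [Matrix.mulVec, dotProduct, Matrix.transpose_apply, faceMatrix, dartExt_dart,
    dartExt_S_dart hΓ]
  refine sum_congr rfl fun d _ => ?_
  split_ifs <;> ring

theorem range_dartRestrict [Fintype (Dart Γ)] (hΓ : (-1 : SL(2, ℤ)) ∈ Γ) :
    LinearMap.range (dartRestrict (Γ := Γ) k) =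
      LinearMap.ker (faceMatrix Γ k).transpose.mulVecLin := by
  classical
  have := Fintype.ofFinite (Coset Γ)
  have hrel : ∀ (c : cocycles k Γ k), c.1 ModularGroup.T =
      fun z => dartExt Γ (dartRestrict k c) (matU • z) := fun c => funext fun z => by
    rw [cocycles_T hΓ, cocycle_S_eq_dartExt hΓ]
  ext a
  rw [LinearMap.mem_ker, Matrix.mulVecLin_apply]
  constructor
  · rintro ⟨c, rfl⟩
    funext o
    rw [faceMatrix_transpose_mulVec hΓ]
    obtain ⟨p, hp⟩ := c.2.2.2.2
    exact (exists_potential_iff_orbit_sum (cosetPerm Γ ModularGroup.T) _).1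
      ⟨p, fun z => (hp z).trans (congrFun (hrel c) z)⟩ o
  · intro ha
    obtain ⟨c, hc, hcS, hcU⟩ := exists_isCocycle hΓ (dartExt Γ a) (dartExt_antisymm hΓ a)
    obtain ⟨p, hp⟩ := (exists_potential_iff_orbit_sum (cosetPerm Γ ModularGroup.T)
      fun z => dartExt Γ a (matU • z)).2 fun o => by
        rw [← faceMatrix_transpose_mulVec hΓ, ha]; rfl
    have hneg : ∀ x, c (-1) x = 0 := fun x => by
      rw [← matU_cube, hc.map_pow]
      exact sum_eq_zero fun i _ => congrFun hcU _
    have hT : ∀ z, c ModularGroup.T z = dartExt Γ a (matU • z) := fun z => by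
      have e : (ModularGroup.T : SL(2, ℤ)) = -1 * (ModularGroup.S * matU) := by decide +kernel
      rw [e, hc, hneg, zero_add, hc, hcU, Pi.zero_apply, add_zero, hcS]
    refine ⟨⟨c, hc, hcU, fun x hx => by rw [hcS, dartExt_fixed a hx], p,
      fun z => (hp z).trans (hT z).symm⟩, funext fun d => ?_⟩
    show c ModularGroup.S d.1 = a d
    rw [hcS, dartExt_dart]

theorem closure_T_conj :
    Subgroup.closure {(ModularGroup.T : SL(2, ℤ)), matU⁻¹ * ModularGroup.S * matU} = ⊤ := by
  rw [eq_top_iff, ← SpecialLinearGroup.SL2Z_generators, Subgroup.closure_le]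
  have hT : (ModularGroup.T : SL(2, ℤ)) ∈
      Subgroup.closure {(ModularGroup.T : SL(2, ℤ)), matU⁻¹ * ModularGroup.S * matU} :=
    Subgroup.subset_closure (Set.mem_insert _ _)
  have hS : (ModularGroup.S : SL(2, ℤ)) =
      ModularGroup.T * (matU⁻¹ * ModularGroup.S * matU) * ModularGroup.T⁻¹ := by decide +kernel
  rintro g (rfl | rfl)
  · rw [hS]
    exact mul_mem (mul_mem hT (Subgroup.subset_closure (Set.mem_insert_of_mem _ rfl)))
      (inv_mem hT)
  · exact hT

/-- Constant functions form the kernel of a map whose kernel consists of constants. -/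
theorem finrank_ker_eq_one {O W : Type*} [Finite O] [Nonempty O] [AddCommGroup W] [Module k W]
    (L : (O → k) →ₗ[k] W) (h1 : ∀ t : k, L (fun _ => t) = 0)
    (h2 : ∀ y, L y = 0 → ∃ t, ∀ o, y o = t) : finrank k (LinearMap.ker L) = 1 := by
  let cst : k →ₗ[k] (O → k) :=
    { toFun := fun t _ => t, map_add' := fun _ _ => rfl, map_smul' := fun _ _ => rfl }
  have hker : LinearMap.ker L = LinearMap.range cst := by
    ext y
    constructor
    · exact fun hy => (h2 y hy).imp fun t ht => (funext ht).symm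
    · rintro ⟨t, rfl⟩; exact h1 t
  rw [hker, LinearMap.finrank_range_of_inj (fun s t h => congrFun h (Classical.arbitrary O)),
    Module.finrank_self]

variable (k)

/-- The dimension formula for the range of `toHom`. -/
theorem finrank_range_toHom (hΓ : (-1 : SL(2, ℤ)) ∈ Γ) :
    (finrank k (LinearMap.range (toHom k Γ k)) : ℤ) =
      Nat.card (Dart Γ) - Nat.card (PermOrbit (cosetPerm Γ matU))
        - Nat.card (PermOrbit (cosetPerm Γ ModularGroup.T)) + 2 := by
  classical
  have := Fintype.ofFinite (Coset Γ)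
  have := Fintype.ofFinite (Dart Γ)
  have := Fintype.ofFinite (PermOrbit (cosetPerm Γ matU))
  have := Fintype.ofFinite (PermOrbit (cosetPerm Γ ModularGroup.T))
  have : Nonempty (PermOrbit (cosetPerm Γ matU)) := ⟨orbCls _ (baseCoset Γ)⟩
  have : Nonempty (PermOrbit (cosetPerm Γ ModularGroup.T)) := ⟨orbCls _ (baseCoset Γ)⟩
  have : FiniteDimensional k (cocycles k Γ k) :=
    FiniteDimensional.of_injective (dartRestrict k) (dartRestrict_injective hΓ)
  have e1 := LinearMap.finrank_range_add_finrank_ker (toHom k Γ k)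
  have e2 := LinearMap.finrank_range_add_finrank_ker (coboundary k Γ k)
  have e3 := LinearMap.finrank_range_add_finrank_ker (faceMatrix Γ k).transpose.mulVecLin
  have e4 := LinearMap.finrank_range_add_finrank_ker (faceMatrix Γ k).mulVecLin
  have hc : finrank k (cocycles k Γ k) =
      finrank k (LinearMap.ker (faceMatrix Γ k).transpose.mulVecLin) := by
    rw [← range_dartRestrict hΓ, LinearMap.finrank_range_of_inj (dartRestrict_injective hΓ)]
  have hV : finrank k (LinearMap.ker (coboundary k Γ k)) = 1 := by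
    refine finrank_ker_eq_one _ (fun t => Subtype.ext (funext fun g => funext fun x => sub_self t))
      fun y hy => ⟨y (orbCls _ (baseCoset Γ)), fun o => ?_⟩
    obtain ⟨x, rfl⟩ := orbCls_surjective _ o
    induction x using QuotientGroup.induction_on with
    | _ g =>
      rw [← smul_baseCoset, ← sub_eq_zero]
      exact congrFun (congrFun (congrArg Subtype.val hy) g) (baseCoset Γ)
  have hF : finrank k (LinearMap.ker (faceMatrix Γ k).mulVecLin) = 1 := by
    refine finrank_ker_eq_one _ (fun t => funext fun d => ?_)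
      fun y hy => ⟨y (orbCls _ (baseCoset Γ)), fun o => ?_⟩
    · rw [Matrix.mulVecLin_apply, faceMatrix_mulVec, sub_self]; rfl
    have hd : ∀ d : Dart Γ, y (orbCls _ (matU⁻¹ • d.1)) =
        y (orbCls _ (matU⁻¹ • (ModularGroup.S : SL(2, ℤ)) • d.1)) := fun d => by
      have := congrFun hy d
      rwa [Matrix.mulVecLin_apply, faceMatrix_mulVec, Pi.zero_apply, sub_eq_zero] at this
    have hq : ∀ x, y (orbCls _ (matU⁻¹ • (ModularGroup.S : SL(2, ℤ)) • x)) =
        y (orbCls _ (matU⁻¹ • x)) := by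
      intro x
      rcases dart_trichotomy hΓ x with ⟨d, rfl⟩ | ⟨d, rfl⟩ | hx
      · exact (hd d).symm
      · rw [S_smul_S_smul hΓ]; exact hd d
      · rw [hx]
    obtain ⟨x, rfl⟩ := orbCls_surjective _ o
    refine coset_function_const (fun z => y (orbCls (cosetPerm Γ ModularGroup.T) z)) _
      closure_T_conj ?_ x
    rintro g (rfl | rfl) z
    · exact congrArg y (orbCls_apply (cosetPerm Γ ModularGroup.T) z)
    · have := hq (matU • z)
      rw [inv_smul_smul, smul_smul, smul_smul] at this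
      exact this
  have hrank : finrank k (LinearMap.range (faceMatrix Γ k).transpose.mulVecLin) =
      finrank k (LinearMap.range (faceMatrix Γ k).mulVecLin) :=
    Matrix.rank_transpose (faceMatrix Γ k)
  have hker : finrank k (LinearMap.ker (toHom k Γ k)) =
      finrank k (LinearMap.range (coboundary k Γ k)) := by rw [ker_toHom]
  rw [Module.finrank_fintype_fun_eq_card] at e2 e3 e4
  simp only [Nat.card_eq_fintype_card]
  omega

end field

end FLTA.Gamma0
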