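import Fermat.Agent.Gamma0.Complex.CupBasic
import Fermat.Agent.Gamma0.Complex.Rank

/-!
# Existence of cup primitives, with a formula for their cusp sums
-/

set_option autoImplicit false

open scoped MatrixGroups

namespace FLTA.Gamma0

open Presentation Orbits

variable {R : Type*} [CommRing R] {Γ : Subgroup SL(2, ℤ)}

/-- A function on `G × X` whose coboundary is the cup product of two cocycles. -/
def IsCupCochain (c c' e : SL(2, ℤ) → Coset Γ → R) : Prop :=
  ∀ g h x, e (g * h) x = e g (h • x) + e h x + c g (h • x) * c' h x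

namespace IsCupCochain

variable {c c' e : SL(2, ℤ) → Coset Γ → R}

theorem map_one (he : IsCupCochain c c' e) (hc : IsCocycle c) (x : Coset Γ) : e 1 x = 0 := by
  have h := he 1 1 x
  rw [mul_one, one_smul, hc.map_one, zero_mul, add_zero] at h
  exact left_eq_add.mp h

theorem map_pow (he : IsCupCochain c c' e) (hc : IsCocycle c) (g : SL(2, ℤ)) :
    ∀ (m : ℕ) (x : Coset Γ),
      e (g ^ m) x = ∑ i ∈ Finset.range m, (e g (g ^ i • x) + c g (g ^ i • x) * c' (g ^ i) x)
  | 0, x => by simp [he.map_one hc]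
  | m + 1, x => by
      rw [pow_succ', he, Finset.sum_range_succ, map_pow he hc g m x]; ring

/-- Conjugating an element with a fixed coset. -/
theorem map_conj (he : IsCupCochain c c' e) (hc : IsCocycle c) (hc' : IsCocycle c')
    {η δ : SL(2, ℤ)} {x : Coset Γ} (hη : η • δ • x = δ • x) (h0 : c η (δ • x) = 0)
    (h0' : c' η (δ • x) = 0) : e (δ⁻¹ * η * δ) x = e η (δ • x) := by
  have h1 := he δ⁻¹ (η * δ) x
  have h2 := he η δ x
  have h3 := he δ⁻¹ δ x
  rw [inv_mul_cancel, he.map_one hc] at h3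
  rw [h0, zero_mul, add_zero] at h2
  rw [mul_smul, hη, h2, hc' η δ x, h0', zero_add] at h1
  rw [mul_assoc, h1]
  linear_combination -h3

end IsCupCochain

/-- The cup product of two cocycles vanishing on `S T` has a primitive with prescribed value
on `S`, zero on `S T`. -/
theorem exists_isCupCochain (hΓ : (-1 : SL(2, ℤ)) ∈ Γ) {c c' : SL(2, ℤ) → Coset Γ → R}
    (hc : IsCocycle c) (hc' : IsCocycle c') (hcU : c matU = 0) (hc'U : c' matU = 0)
    (a : Coset Γ → R)
    (ha : ∀ x, a ((ModularGroup.S : SL(2, ℤ)) • x) + a x +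
      c ModularGroup.S ((ModularGroup.S : SL(2, ℤ)) • x) * c' ModularGroup.S x = 0) :
    ∃ e : SL(2, ℤ) → Coset Γ → R, IsCupCochain c c' e ∧ e ModularGroup.S = a ∧ e matU = 0 := by
  have hneg : ∀ {d : SL(2, ℤ) → Coset Γ → R}, IsCocycle d → d matU = 0 → ∀ x, d (-1) x = 0 :=
    fun hd hdU x => by
      rw [← matU_cube, hd.map_pow]
      exact Finset.sum_eq_zero fun i _ => congrFun hdU _
  have hS2 : ∀ x : Coset Γ, (ModularGroup.S : SL(2, ℤ)) • (ModularGroup.S : SL(2, ℤ)) • x = x :=
    fun x => by rw [← mul_smul, ← pow_two, S_sq, neg_one_smul_coset hΓ]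
  have hSS : ∀ {d : SL(2, ℤ) → Coset Γ → R}, IsCocycle d → d matU = 0 → ∀ x,
      d ModularGroup.S ((ModularGroup.S : SL(2, ℤ)) • x) + d ModularGroup.S x = 0 :=
    fun hd hdU x => by rw [← hd, ← pow_two, S_sq]; exact hneg hd hdU x
  let f : Coset Γ × R × R → Coset Γ × R × R := fun z =>
    ((ModularGroup.S : SL(2, ℤ)) • z.1, z.2.1 + c' ModularGroup.S z.1,
      z.2.2 + a z.1 + c ModularGroup.S z.1 * z.2.1)
  let P : Equiv.Perm (Coset Γ × R × R) := Function.Involutive.toPerm f fun z => by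
    refine Prod.ext (hS2 z.1) (Prod.ext ?_ ?_)
    · show z.2.1 + c' ModularGroup.S z.1 + c' ModularGroup.S _ = z.2.1
      linear_combination hSS hc' hc'U z.1
    · show z.2.2 + a z.1 + c ModularGroup.S z.1 * z.2.1 + a _ +
        c ModularGroup.S _ * (z.2.1 + c' ModularGroup.S z.1) = z.2.2
      linear_combination ha z.1 + z.2.1 * hSS hc hcU z.1
  let Q : Equiv.Perm (Coset Γ × R × R) := (cosetPerm Γ matU).prodCongr (Equiv.refl (R × R))
  have hP : P ^ 2 = 1 := Equiv.ext fun z => by
    rw [pow_two, Equiv.Perm.mul_apply, Equiv.Perm.one_apply]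
    exact Function.Involutive.toPerm_involutive _ z
  have hQ : Q ^ 3 = 1 := Equiv.ext fun z => by
    show Q (Q (Q z)) = z
    refine Prod.ext ?_ rfl
    show matU • matU • matU • z.1 = z.1
    rw [← mul_smul, ← mul_smul, ← pow_three', matU_cube, neg_one_smul_coset hΓ]
  let ρ := sl2Lift P Q hP hQ
  let Adm : SL(2, ℤ) → Prop := fun g =>
    ∀ (x : Coset Γ) (v w : R), ρ g (x, v, w) =
      (g • x, v + c' g x, w + (ρ g (x, 0, 0)).2.2 + c g x * v)
  have hmul : ∀ g h, Adm g → Adm h → Adm (g * h) := by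
    intro g h hg hh x v w
    simp only [map_mul, Equiv.Perm.mul_apply]
    rw [hh x v w, hh x 0 0, hg, hg (h • x) (0 + c' h x), mul_smul, hc, hc' g h]
    refine Prod.ext rfl (Prod.ext ?_ ?_) <;> simp only <;> ring
  have h1 : Adm 1 := fun x v w => by simp [hc.map_one, hc'.map_one]
  have hU : Adm matU := fun x v w => by
    simp [ρ, sl2Lift_matU, Q, hcU, hc'U]
  have hS : Adm ModularGroup.S := fun x v w => by
    simp [ρ, sl2Lift_S, P, f, Function.Involutive.toPerm]
  have htop : Submonoid.closure {(ModularGroup.S : SL(2, ℤ)), matU} = ⊤ := by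
    have hmem : ∀ g ∈ Subgroup.closure {(ModularGroup.S : SL(2, ℤ)), ModularGroup.T},
        g ∈ Submonoid.closure {(ModularGroup.S : SL(2, ℤ)), matU} := by
      intro g hg
      have hS' : (ModularGroup.S : SL(2, ℤ)) ∈
          Submonoid.closure {(ModularGroup.S : SL(2, ℤ)), matU} :=
        Submonoid.subset_closure (Set.mem_insert _ _)
      have hU' : matU ∈ Submonoid.closure {(ModularGroup.S : SL(2, ℤ)), matU} :=
        Submonoid.subset_closure (Set.mem_insert_of_mem _ rfl)
      induction hg using Subgroup.closure_induction'' with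
      | one => exact one_mem _
      | mem y hy =>
        rcases hy with rfl | rfl
        · exact hS'
        · rw [show (ModularGroup.T : SL(2, ℤ)) = ModularGroup.S ^ 3 * matU by decide +kernel]
          exact mul_mem (pow_mem hS' 3) hU'
      | inv_mem y hy =>
        rcases hy with rfl | rfl
        · rw [show (ModularGroup.S : SL(2, ℤ))⁻¹ = ModularGroup.S ^ 3 by decide +kernel]
          exact pow_mem hS' 3
        · rw [show (ModularGroup.T : SL(2, ℤ))⁻¹ = matU ^ 5 * ModularGroup.S by decide +kernel]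
          exact mul_mem (pow_mem hU' 5) hS'
      | mul y z _ _ hy hz => exact mul_mem hy hz
    exact eq_top_iff.2 fun g _ =>
      hmem g (SpecialLinearGroup.SL2Z_generators ▸ Subgroup.mem_top g)
  have hall : ∀ g, Adm g := fun g => by
    have : g ∈ Submonoid.closure {(ModularGroup.S : SL(2, ℤ)), matU} := htop ▸ trivial
    induction this using Submonoid.closure_induction with
    | mem y hy => rcases hy with rfl | rfl <;> assumption
    | one => exact h1
    | mul y z _ _ hy hz => exact hmul y z hy hz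
  refine ⟨fun g x => (ρ g (x, 0, 0)).2.2, fun g h x => ?_, funext fun x => ?_, funext fun x => ?_⟩
  · simp only [map_mul, Equiv.Perm.mul_apply]
    rw [hall h x 0 0, hall g (h • x) (0 + c' h x)]
    simp only; ring
  · simp [ρ, sl2Lift_S, P, f, Function.Involutive.toPerm]
  · simp [ρ, sl2Lift_matU, Q]

/-- The weights of a function on the cosets grouped by cusps. -/
theorem sum_cuspRep [Finite (Coset Γ)] (f : Coset Γ → R) :
    ∑ᶠ o : PermOrbit (cosetPerm Γ ModularGroup.T),
        ∑ i ∈ Finset.range (cuspWidth Γ (cuspRep Γ o)),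
          f ((ModularGroup.T : SL(2, ℤ)) ^ i • cuspRep Γ o) = ∑ᶠ x, f x := by
  classical
  have := Fintype.ofFinite (Coset Γ)
  have := Fintype.ofFinite (PermOrbit (cosetPerm Γ ModularGroup.T))
  rw [finsum_eq_sum_of_fintype, finsum_eq_sum_of_fintype,
    ← Finset.sum_fiberwise Finset.univ (orbCls (cosetPerm Γ ModularGroup.T)) f]
  refine Finset.sum_congr rfl fun o _ => ?_
  conv_rhs =>
    rw [show o = orbCls _ (cuspRep Γ o) from (Function.surjInv_eq (orbCls_surjective _) o).symm]
  symm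
  refine (Finset.sum_congr (s₂ := (Finset.range (cuspWidth Γ (cuspRep Γ o))).image fun i =>
    (cosetPerm Γ ModularGroup.T ^ i) (cuspRep Γ o)) ?_ fun _ _ => rfl).trans ?_
  · refine Eq.trans ?_ (filter_orbCls_eq (cosetPerm Γ ModularGroup.T) (cuspRep Γ o))
    exact Finset.filter_congr fun _ _ => Iff.rfl
  refine (Finset.sum_image (injOn_pow_minimalPeriod _ _)).trans ?_
  refine Finset.sum_congr rfl fun i _ => ?_
  exact congrArg f (DFunLike.congr_fun
    (map_pow (MulAction.toPermHom SL(2, ℤ) (Coset Γ)) ModularGroup.T i) (cuspRep Γ o)).symm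

/-- A cup primitive of two homomorphisms given by normalised cocycles, and the value of its sum
over the cusps. -/
theorem exists_isCupPrimitive_cocycles {R : Type*} [CommRing R] {Γ : Subgroup SL(2, ℤ)}
    [Finite (Coset Γ)] (hΓ : (-1 : SL(2, ℤ)) ∈ Γ) (c c' : cocycles R Γ R) (p : Coset Γ → R)
    (hp : ∀ x, p ((ModularGroup.T : SL(2, ℤ)) • x) - p x = c'.1 ModularGroup.T x) :
    ∃ F : Γ → R, IsCupPrimitive (toHom R Γ R c) (toHom R Γ R c') F ∧
      cupSum Γ F = (∑ᶠ d : Dart Γ, c.1 ModularGroup.S d.1 * c'.1 ModularGroup.S d.1) +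
        ∑ᶠ x : Coset Γ, c.1 ModularGroup.S (matU • x) * p x := by
  classical
  have := Fintype.ofFinite (Coset Γ)
  have := Fintype.ofFinite (Dart Γ)
  have hd : ∀ x, (¬ cosetIndex Γ ((ModularGroup.S : SL(2, ℤ)) • x) < cosetIndex Γ x ∧
      ¬ cosetIndex Γ x < cosetIndex Γ ((ModularGroup.S : SL(2, ℤ)) • x)) →
      (ModularGroup.S : SL(2, ℤ)) • x = x := fun x hx =>
    cosetIndex_injective Γ (le_antisymm (not_lt.1 hx.2) (not_lt.1 hx.1))
  let a : Coset Γ → R := fun x =>
    if cosetIndex Γ ((ModularGroup.S : SL(2, ℤ)) • x) < cosetIndex Γ x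
    then c.1 ModularGroup.S x * c'.1 ModularGroup.S x else 0
  have haS : ∀ x, a ((ModularGroup.S : SL(2, ℤ)) • x) + a x +
      c.1 ModularGroup.S ((ModularGroup.S : SL(2, ℤ)) • x) * c'.1 ModularGroup.S x = 0 := by
    intro x
    simp only [a, S_smul_S_smul hΓ, cocycles_S_smul hΓ]
    split_ifs with h1 h2 h2
    · exact absurd h2 (lt_asymm h1)
    · ring
    · ring
    · rw [c.2.2.2.1 x (hd x ⟨h2, h1⟩)]; ring
  obtain ⟨e, he, heS, heU⟩ := exists_isCupCochain hΓ c.2.1 c'.2.1 c.2.2.1 c'.2.2.1 a haS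
  have eUpow : ∀ n x, e (matU ^ n) x = 0 := fun n x => by
    rw [he.map_pow c.2.1]
    exact Finset.sum_eq_zero fun i _ => by simp [heU, c.2.2.1]
  have cUpow : ∀ (d : cocycles R Γ R) n x, d.1 (matU ^ n) x = 0 := fun d n x => by
    rw [d.2.1.map_pow]
    exact Finset.sum_eq_zero fun i _ => congrFun d.2.2.1 _
  have eNeg : ∀ x, e (-1) x = 0 := fun x => by rw [← matU_cube]; exact eUpow 3 x
  -- values at fixed cosets of the powers of `S` and `S T`
  have fixS : ∀ (n : ℕ) (y : Coset Γ), (ModularGroup.S : SL(2, ℤ)) ^ n • y = y →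
      c.1 (ModularGroup.S ^ n) y = 0 ∧ c'.1 (ModularGroup.S ^ n) y = 0 ∧
        e (ModularGroup.S ^ n) y = 0 := by
    intro n y hy
    obtain ⟨k, rfl | rfl⟩ := Nat.even_or_odd' n
    · have e2 : (ModularGroup.S : SL(2, ℤ)) ^ (2 * k) = matU ^ (3 * k) := by
        rw [pow_mul, pow_mul, S_sq, matU_cube]
      rw [e2]
      exact ⟨cUpow c _ y, cUpow c' _ y, eUpow _ y⟩
    · have e2 : (ModularGroup.S : SL(2, ℤ)) ^ (2 * k + 1) = matU ^ (3 * k) * ModularGroup.S := by
        rw [pow_succ, pow_mul, pow_mul, S_sq, matU_cube]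
      rw [e2, mul_smul, pow_mul, matU_cube] at hy
      have hy' : (ModularGroup.S : SL(2, ℤ)) • y = y := by
        rcases neg_one_pow_eq_or SL(2, ℤ) k with h | h <;> rw [h] at hy
        · rwa [one_smul] at hy
        · rwa [neg_one_smul_coset hΓ] at hy
      have h0 : a y = 0 := if_neg (by rw [hy']; exact lt_irrefl _)
      refine ⟨?_, ?_, ?_⟩
      · rw [e2, c.2.1, cUpow, c.2.2.2.1 y hy', add_zero]
      · rw [e2, c'.2.1, cUpow, c'.2.2.2.1 y hy', add_zero]
      · rw [e2, he, eUpow, cUpow, heS, h0]; ring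
  refine ⟨fun γ => e (γ : SL(2, ℤ)) (baseCoset Γ), ⟨fun g h => ?_, fun g hg => ?_⟩, ?_⟩
  · show e (((g : SL(2, ℤ)) * (h : SL(2, ℤ)))) _ = _
    rw [he, smul_baseCoset_of_mem]
    rfl
  · rcases hg with hg | hg | hg
    · obtain ⟨δ, n, hδ⟩ := ConjClass.exists_conj_eq_pow _ hg
      have hfix : ((δ * (g : SL(2, ℤ)) * δ⁻¹) : SL(2, ℤ)) • δ • baseCoset Γ
          = δ • baseCoset Γ := by
        rw [smul_smul, inv_mul_cancel_right, mul_smul, smul_baseCoset_of_mem]
      show e (g : SL(2, ℤ)) _ = 0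
      rw [show (g : SL(2, ℤ)) = δ⁻¹ * (δ * (g : SL(2, ℤ)) * δ⁻¹) * δ by group]
      rcases hδ with hδ | hδ <;> rw [hδ] at hfix ⊢
      · obtain ⟨h1, h2, h3⟩ := fixS n _ hfix
        rw [he.map_conj c.2.1 c'.2.1 hfix h1 h2, h3]
      · rw [he.map_conj c.2.1 c'.2.1 hfix (cUpow c _ _) (cUpow c' _ _), eUpow]
    · show e (g : SL(2, ℤ)) _ = 0
      rw [hg, he.map_one c.2.1]
    · show e (g : SL(2, ℤ)) _ = 0
      rw [hg, eNeg]
  · have eT : ∀ x, e ModularGroup.T x = a (matU • x) := fun x => by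
      rw [show (ModularGroup.T : SL(2, ℤ)) = -1 * (ModularGroup.S * matU) by decide +kernel,
        he, eNeg, cocycles_neg_one, he, heS, heU, c'.2.2.1]
      simp
    have hc'T : ∀ (i : ℕ) (z : Coset Γ), c'.1 (ModularGroup.T ^ i) z =
        p ((ModularGroup.T : SL(2, ℤ)) ^ i • z) - p z := fun i z => by
      have hsum := Finset.sum_range_sub (fun j => p ((ModularGroup.T : SL(2, ℤ)) ^ j • z)) i
      simp only [pow_zero, one_smul] at hsum
      rw [c'.2.1.map_pow, ← hsum]
      exact Finset.sum_congr rfl fun j _ => by rw [← hp, ← mul_smul, ← pow_succ']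
    have hterm : ∀ o, e ((cuspElt Γ (cuspRep Γ o) : Γ) : SL(2, ℤ)) (baseCoset Γ) =
        ∑ i ∈ Finset.range (cuspWidth Γ (cuspRep Γ o)),
          (fun x => a (matU • x) + c.1 ModularGroup.S (matU • x) * p x)
            ((ModularGroup.T : SL(2, ℤ)) ^ i • cuspRep Γ o) := by
      intro o
      generalize cuspRep Γ o = z
      have hz : (ModularGroup.T : SL(2, ℤ)) ^ cuspWidth Γ z • z = z := by
        have := Function.iterate_minimalPeriod
          (f := fun y : Coset Γ => (ModularGroup.T : SL(2, ℤ)) • y) (x := z)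
        rwa [smul_iterate_apply] at this
      have hout : z.out • baseCoset Γ = z := by rw [smul_baseCoset, QuotientGroup.out_eq']
      have hzero : ∀ d : cocycles R Γ R, d.1 (ModularGroup.T ^ cuspWidth Γ z) z = 0 := fun d => by
        have := cocycles_T_zpow d (cuspWidth Γ z) z (by rw [zpow_natCast]; exact hz)
        rwa [zpow_natCast] at this
      show e (z.out⁻¹ * ModularGroup.T ^ cuspWidth Γ z * z.out) _ = _
      rw [he.map_conj c.2.1 c'.2.1 (by rw [hout]; exact hz) (by rw [hout]; exact hzero c)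
        (by rw [hout]; exact hzero c'), hout, he.map_pow c.2.1]
      have hc0 : ∑ i ∈ Finset.range (cuspWidth Γ z),
          c.1 ModularGroup.T ((ModularGroup.T : SL(2, ℤ)) ^ i • z) * p z = 0 := by
        rw [← Finset.sum_mul, ← c.2.1.map_pow, hzero, zero_mul]
      rw [← sub_zero (Finset.sum _ fun i => (fun x => a (matU • x) + _) _), ← hc0,
        ← Finset.sum_sub_distrib]
      refine Finset.sum_congr rfl fun i _ => ?_
      simp only [eT, hc'T, cocycles_T hΓ]
      ring
    show ∑ᶠ o, e ((cuspElt Γ (cuspRep Γ o) : Γ) : SL(2, ℤ)) (baseCoset Γ) = _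
    rw [finsum_congr hterm, sum_cuspRep (fun x => a (matU • x) + c.1 ModularGroup.S (matU • x) * p x),
      finsum_eq_sum_of_fintype, finsum_eq_sum_of_fintype, finsum_eq_sum_of_fintype,
      Finset.sum_add_distrib]
    congr 1
    refine (Equiv.sum_comp (MulAction.toPerm (matU : SL(2, ℤ))) a).trans ?_
    rw [sum_coset hΓ a]
    rw [Finset.sum_eq_zero (s := Finset.univ.filter _) fun x hx =>
      if_neg (by rw [(Finset.mem_filter.1 hx).2]; exact lt_irrefl _), add_zero]
    refine Finset.sum_congr rfl fun d _ => ?_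
    simp only [a, if_neg (not_lt.2 d.2.le), S_smul_S_smul hΓ, if_pos d.2, cocycles_S_smul hΓ]
    ring

end FLTA.Gamma0
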